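import Fermat.Agent.LPart.Shape

/-!
# The number of `g ∈ GL₂(ℤ/p^(a+c+1))` with `g - 1` of given shape

They are counted by the reduction modulo `p` of `Y`, where `g = 1 + pᵃ Y`: over an invertible
residue only `c = 0` occurs, over one of rank one the determinant of the lifts is equidistributed
among the multiples of `p`.
-/

set_option autoImplicit false
set_option linter.unusedSectionVars false
set_option linter.style.haveILetI false

noncomputable section

open Matrix Finset FA.OrderDensity
open scoped Classical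

namespace FA.LPart

variable {p : ℕ} [hp : Fact p.Prime]

local notation "R[" m "]" => ZMod (p ^ m)
local notation "M[" m "]" => Matrix (Fin 2) (Fin 2) (ZMod (p ^ m))
local notation "M₁" => Matrix (Fin 2) (Fin 2) (ZMod p)

/-- Over a residue of rank one the determinant is equidistributed among the multiples of `p`. -/
theorem sum_det_of_rank_one (m : ℕ) {Ā : M₁} (h0 : Ā ≠ 0) (hd : Ā.det = 0)
    (F : R[m + 1] → ℕ) :
    ∑ A ∈ univ.filter (fun A => resMat m A = Ā), F A.det =
      p ^ (3 * m) * ∑ z : R[m], F (pMul m z) := by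
  obtain ⟨L, hL⟩ : ∃ L, resMat m L = Ā := by
    choose f hf using fun a b => res_surjective m (Ā a b)
    exact ⟨f, by ext a b; exact hf a b⟩
  obtain ⟨i, j, hij⟩ : ∃ i j, Ā i j ≠ 0 := by
    by_contra hc
    push Not at hc
    exact h0 (Matrix.ext hc)
  have hres : ∀ (B : M[m]) (a b : Fin 2), res m ((L + B.map (pMul m)) a b) = Ā a b := by
    intro B a b
    rw [← hL]
    simp [resMat, res_pMul]
  rw [sum_fibre hL]
  obtain ⟨k, l, e, he, hdet⟩ := exists_det_add_single (S := R[m + 1]) i j
  set f : M[m] → ℕ := fun B => F (L + B.map (pMul m)).det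
  have hrow : ∀ B : M[m], ∑ y, f (B + Matrix.single k l y) = ∑ z, F (pMul m z) := by
    intro B
    obtain ⟨d, hd'⟩ := res_eq_zero_iff.mp (show res m (L + B.map (pMul m)).det = 0 by
      rw [RingHom.map_det, ← hd]
      exact congrArg Matrix.det (Matrix.ext (hres B)))
    set u := red m (e * (L + B.map (pMul m)) i j)
    have hu : IsUnit u := (he.mul (isUnit_iff_res.mpr (by rw [hres]; exact hij))).map (red m)
    have hf : ∀ y, f (B + Matrix.single k l y) = F (pMul m (d + y * u)) := fun y => by
      have e1 : (B + Matrix.single k l y).map (pMul m) =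
          B.map (pMul m) + Matrix.single k l (pMul m y) := by
        ext a b
        by_cases hab : k = a ∧ l = b <;> simp [Matrix.single, hab]
      show F (L + (B + Matrix.single k l y).map (pMul m)).det = _
      rw [e1, ← add_assoc, hdet, ← hd', pMul_mul, ← map_add]
    rw [Finset.sum_congr rfl fun y _ => hf y]
    exact Equiv.sum_comp ((Units.mulRight hu.unit : R[m] ≃ R[m]).trans (Equiv.addLeft d))
      fun z => F (pMul m z)
  have hsum : ∑ B, ∑ y, f (B + Matrix.single k l y) = p ^ m * ∑ B, f B := by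
    have hshift : ∀ y : R[m], ∑ B, f (B + Matrix.single k l y) = ∑ B, f B := fun y =>
      Equiv.sum_comp (Equiv.addRight (Matrix.single k l y)) f
    rw [Finset.sum_comm, Finset.sum_congr rfl fun y _ => hshift y, Finset.sum_const,
      Finset.card_univ, ZMod.card, smul_eq_mul]
  rw [Finset.sum_congr rfl fun B _ => hrow B, Finset.sum_const, Finset.card_univ, card_M,
    smul_eq_mul] at hsum
  refine Nat.eq_of_mul_eq_mul_left (pow_pos hp.out.pos m) (hsum.symm.trans ?_)
  rw [← mul_assoc, ← pow_add, show m + 3 * m = 4 * m by ring]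

/-- The residues modulo `p` of `p ^ a` times an element. -/
theorem res_mulPow (a c : ℕ) (z : R[c + 1]) :
    res (a + c) (mulPow a (c + 1) z) = (p : ZMod p) ^ a * res c z := by
  obtain ⟨z, rfl⟩ := ZMod.intCast_surjective z
  rw [show mulPow a (c + 1) (z : R[c + 1]) = (p : R[a + (c + 1)]) ^ a * (z : R[a + (c + 1)]) from
      ZMod.lift_coe _ _ _, map_intCast]
  exact (map_mul (res (p := p) (a + c)) _ _).trans (by rw [map_pow, map_natCast, map_intCast])

/-- The matrices `Y`. -/
def goodY (a c : ℕ) : Finset M[c + 1] :=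
  univ.filter fun Y => (p : R[c + 1]) * Y.det = 0 ∧ Y.det ≠ 0 ∧ resMat c Y ≠ 0 ∧
    (1 + (p : ZMod p) ^ a • resMat c Y).det ≠ 0

theorem det_res_one_add (a c : ℕ) (Y : M[c + 1]) :
    res (a + c) (1 + Y.map (mulPow a (c + 1))).det = (1 + (p : ZMod p) ^ a • resMat c Y).det := by
  refine (RingHom.map_det (res (p := p) (a + c)) _).trans (congrArg Matrix.det ?_)
  ext i j
  show res (a + c) ((1 + Y.map (mulPow a (c + 1))) i j) = _
  rw [Matrix.add_apply, Matrix.add_apply, Matrix.smul_apply, smul_eq_mul, Matrix.map_apply]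
  refine (map_add (res (p := p) (a + c)) _ _).trans ?_
  rw [res_mulPow]
  congr 1
  rcases eq_or_ne i j with rfl | hij
  · rw [one_apply_eq, one_apply_eq]; exact map_one _
  · rw [one_apply_ne hij, one_apply_ne hij]; exact map_zero _

/-- The invertible `1 + pᵃ Y` correspond to the `Y`. -/
theorem natCard_shape (a c : ℕ) :
    Nat.card {g : GL (Fin 2) R[a + (c + 1)] // Shape a c (g.val - 1)} =
      (goodY (p := p) a c).card := by
  rw [Nat.card_eq_fintype_card, Fintype.card_subtype]
  refine (Finset.card_bij (fun (Y : M[c + 1]) hY =>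
      (show IsUnit (1 + Y.map (mulPow a (c + 1))) from ?_).unit)
    (fun Y hY => ?_) (fun Y _ Y' _ e => ?_) fun g hg => ?_).symm
  · rw [Matrix.isUnit_iff_isUnit_det]
    refine (isUnit_iff_res (m := a + c)).mpr ?_
    rw [det_res_one_add]
    exact (Finset.mem_filter.mp hY).2.2.2.2
  · obtain ⟨-, h1, h2, h3, -⟩ := Finset.mem_filter.mp hY
    exact Finset.mem_filter.mpr ⟨Finset.mem_univ _, Y,
      by rw [IsUnit.unit_spec, add_sub_cancel_left], h3, h1, h2⟩
  · have e' := congrArg Units.val e
    rw [IsUnit.unit_spec, IsUnit.unit_spec, add_right_inj] at e'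
    exact Matrix.ext fun i j => mulPow_injective a _ (congrFun (congrFun e' i) j)
  · obtain ⟨Y, hY, h3, h1, h2⟩ := (Finset.mem_filter.mp hg).2
    have hg' : g.val = 1 + Y.map (mulPow a (c + 1)) := by rw [← hY, add_sub_cancel]
    refine ⟨Y, Finset.mem_filter.mpr ⟨Finset.mem_univ _, h1, h2, h3, ?_⟩,
      Units.ext (by rw [IsUnit.unit_spec, hg'])⟩
    rw [← det_res_one_add, ← hg']
    exact (isUnit_iff_res (m := a + c)).mp ((Matrix.isUnit_iff_isUnit_det _).mp g.isUnit)

/-- The number of `Y` over one residue. -/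
def fibreCount (p c : ℕ) (singular : Prop) : ℝ :=
  if c = 0 then (if singular then 0 else 1) else if singular then ((p : ℝ) - 1) * (p : ℝ) ^ (3 * c)
    else 0

theorem card_fibre (c : ℕ) {Ā : M₁} (h0 : Ā ≠ 0) :
    ((univ.filter fun Y : M[c + 1] =>
        resMat c Y = Ā ∧ (p : R[c + 1]) * Y.det = 0 ∧ Y.det ≠ 0).card : ℝ) =
      fibreCount p c (Ā.det = 0) := by
  rw [← Finset.filter_filter, Finset.card_filter]
  set F : R[c + 1] → ℕ := fun z => if (p : R[c + 1]) * z = 0 ∧ z ≠ 0 then 1 else 0
  have hdetres : ∀ Y ∈ univ.filter (fun Y : M[c + 1] => resMat c Y = Ā),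
      res c Y.det = Ā.det := fun Y hY => by
    rw [RingHom.map_det]
    exact congrArg Matrix.det (Finset.mem_filter.mp hY).2
  by_cases hd : Ā.det = 0
  · rw [show (∑ Y ∈ univ.filter (fun Y : M[c + 1] => resMat c Y = Ā),
        if (p : R[c + 1]) * Y.det = 0 ∧ Y.det ≠ 0 then 1 else 0) =
      p ^ (3 * c) * ∑ z : R[c], F (pMul c z) from sum_det_of_rank_one c h0 hd F]
    rcases Nat.eq_zero_or_pos c with rfl | hc
    · haveI : Subsingleton R[0] := by rw [pow_zero]; infer_instance
      have : ∑ z : R[0], F (pMul 0 z) = 0 := Finset.sum_eq_zero fun z _ => by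
        rw [Subsingleton.elim z 0, map_zero]
        exact if_neg fun h => h.2 rfl
      rw [this, fibreCount, if_pos rfl, if_pos hd, mul_zero, Nat.cast_zero]
    · have hcard : ∑ z : R[c], F (pMul c z) = p - 1 := by
        rw [← Finset.sum_image (f := F) fun a _ b _ h => pMul_injective c h,
          ← Finset.card_filter]
        have hs : ((univ : Finset R[c]).image (pMul c)).filter
            (fun z => (p : R[c + 1]) * z = 0 ∧ z ≠ 0) =
              (univ.filter fun z : R[c + 1] => (p : R[c + 1]) * z = 0).erase 0 := by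
          ext z
          simp only [mem_filter, mem_image, mem_univ, true_and, mem_erase]
          refine ⟨fun h => ⟨h.2.2, h.2.1⟩, fun h => ⟨res_eq_zero_iff.mp ?_, h.2, h.1⟩⟩
          by_contra hne
          have hp0 : (p : R[c + 1]) = 0 := (isUnit_iff_res.mpr hne).mul_left_eq_zero.mp h.2
          rw [ZMod.natCast_eq_zero_iff] at hp0
          have := Nat.le_of_dvd hp.out.pos hp0
          have := Nat.pow_le_pow_right hp.out.pos (show 2 ≤ c + 1 by omega)
          nlinarith [hp.out.two_le]
        rw [hs, Finset.card_erase_of_mem (by simp)]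
        obtain ⟨e⟩ := nonempty_killed_equiv (p := p) (n := c + 1) (e := 1) (by omega)
        have := (Nat.card_congr e.toEquiv).trans (Nat.card_zmod _)
        rw [pow_one] at this
        refine congrArg (· - 1) (Eq.trans ?_ this)
        rw [← Fintype.card_subtype, ← Nat.card_eq_fintype_card]
        exact Nat.card_congr (Equiv.subtypeEquivRight fun z => by rw [mem_killed, pow_one])
      rw [hcard, fibreCount, if_neg hc.ne', if_pos hd, Nat.cast_mul, Nat.cast_sub hp.out.one_le,
        Nat.cast_pow, Nat.cast_one, mul_comm]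
  · rw [fibreCount, if_neg hd, if_neg hd]
    rcases Nat.eq_zero_or_pos c with rfl | hc
    · rw [if_pos rfl, Finset.sum_congr rfl fun Y hY => if_pos ?_]
      · obtain ⟨L, hL⟩ : ∃ L, resMat 0 L = Ā := by
          choose f hf using fun a b => res_surjective 0 (Ā a b)
          exact ⟨f, by ext a b; exact hf a b⟩
        rw [sum_fibre hL, Finset.sum_const, Finset.card_univ, card_M, mul_zero, pow_zero]
        simp
      · refine ⟨?_, fun h => hd ?_⟩
        · rw [(ZMod.natCast_eq_zero_iff p _).mpr (by rw [zero_add, pow_one]), zero_mul]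
        · rw [← hdetres Y hY, h, map_zero]
    · rw [if_neg hc.ne', Finset.sum_eq_zero fun Y hY => if_neg ?_, Nat.cast_zero]
      rintro ⟨hz, -⟩
      have hu : IsUnit Y.det := isUnit_iff_res.mpr (by rw [hdetres Y hY]; exact hd)
      rw [hu.mul_left_eq_zero, ZMod.natCast_eq_zero_iff] at hz
      have := Nat.le_of_dvd hp.out.pos hz
      have := Nat.pow_le_pow_right hp.out.pos (show 2 ≤ c + 1 by omega)
      nlinarith [hp.out.two_le]

/-- **The count.** -/
theorem card_goodY (a c : ℕ) : ((goodY (p := p) a c).card : ℝ) =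
    if a = 0 then (if c = 0 then (p : ℝ) ^ 4 - 2 * (p : ℝ) ^ 3 - (p : ℝ) ^ 2 + 3 * p
      else ((p : ℝ) ^ 3 - 2 * p - 1) * (((p : ℝ) - 1) * (p : ℝ) ^ (3 * c)))
    else (if c = 0 then ((p : ℝ) ^ 2 - 1) * ((p : ℝ) ^ 2 - p)
      else ((p : ℝ) + 1) * ((p : ℝ) ^ 2 - 1) * (((p : ℝ) - 1) * (p : ℝ) ^ (3 * c))) := by
  set T : Finset M₁ := univ.filter fun A => A ≠ 0 ∧ (1 + (p : ZMod p) ^ a • A).det ≠ 0 with hT
  have hsplit : ((goodY (p := p) a c).card : ℝ) = ∑ Ā ∈ T, fibreCount p c (Ā.det = 0) := by
    rw [Finset.card_eq_sum_card_fiberwise (f := resMat c) (t := T) fun Y hY =>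
      Finset.mem_filter.mpr ⟨Finset.mem_univ _, (Finset.mem_filter.mp hY).2.2.2⟩, Nat.cast_sum]
    refine Finset.sum_congr rfl fun Ā hĀ => ?_
    obtain ⟨hne, hdet⟩ := (Finset.mem_filter.mp hĀ).2
    rw [← card_fibre c hne, goodY, Finset.filter_filter]
    refine congrArg (fun s : Finset M[c + 1] => (s.card : ℝ)) (Finset.filter_congr fun Y _ => ?_)
    constructor
    · rintro ⟨⟨h1, h2, -, -⟩, rfl⟩
      exact ⟨rfl, h1, h2⟩
    · rintro ⟨rfl, h1, h2⟩
      exact ⟨⟨h1, h2, hne, hdet⟩, rfl⟩
  rw [hsplit]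
  rcases Nat.eq_zero_or_pos a with rfl | ha
  · -- the residues are those of `g - 1`
    have hbij : ∑ Ā ∈ T, fibreCount p c (Ā.det = 0) = ∑ γ : GL (Fin 2) (ZMod p),
        if γ = 1 then 0 else fibreCount p c ((γ.val - 1).det = 0) := by
      rw [Finset.sum_ite, Finset.sum_const_zero, zero_add]
      refine Finset.sum_bij (fun A hA => Matrix.GeneralLinearGroup.mkOfDetNeZero (1 + A)
        (by simpa using (Finset.mem_filter.mp hA).2.2)) (fun A hA => ?_) (fun A _ A' _ e => ?_)
        (fun γ hγ => ?_) fun A hA => ?_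
      · refine Finset.mem_filter.mpr ⟨Finset.mem_univ _, fun e => (Finset.mem_filter.mp hA).2.1 ?_⟩
        have e' := congrArg Units.val e
        rw [Units.val_one] at e'
        exact add_eq_left.mp e'
      · exact add_left_cancel (congrArg Units.val e :)
      · refine ⟨γ.val - 1, Finset.mem_filter.mpr ⟨Finset.mem_univ _, fun e =>
          (Finset.mem_filter.mp hγ).2 (Units.ext (sub_eq_zero.mp e)), ?_⟩,
          Units.ext (add_sub_cancel _ _)⟩
        rw [pow_zero, one_smul, add_sub_cancel]
        exact ((Matrix.isUnit_iff_isUnit_det γ.val).mp γ.isUnit).ne_zero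
      · show _ = fibreCount p c (((1 + A : M₁) - 1).det = 0)
        rw [add_sub_cancel_left]
    rw [hbij, if_pos rfl]
    have h := FA.BashmakovDensity.sum_strata_gl2 (k := ZMod p)
      (fibreCount p c False) (fibreCount p c True) 0
    rw [ZMod.card, add_zero] at h
    have hstrata : ∀ γ : GL (Fin 2) (ZMod p),
        (if γ = 1 then 0 else fibreCount p c ((γ.val - 1).det = 0)) =
          if γ = 1 then 0 else if γ.val.trace = γ.val.det + 1 then fibreCount p c True
            else fibreCount p c False := fun γ => by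
      have hd : (γ.val - 1).det = γ.val.det + 1 - γ.val.trace := by
        simp [det_fin_two, trace_fin_two]; ring
      rcases eq_or_ne γ 1 with h1 | h1
      · rw [if_pos h1, if_pos h1]
      rw [if_neg h1, if_neg h1]
      by_cases h2 : γ.val.trace = γ.val.det + 1
      · rw [if_pos h2, eq_true (show (γ.val - 1).det = 0 by rw [hd, h2, sub_self])]
      · rw [if_neg h2, eq_false (show ¬(γ.val - 1).det = 0 by
          rw [hd, sub_eq_zero]; exact fun e => h2 e.symm)]
    rw [Finset.sum_congr rfl fun γ _ => hstrata γ]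
    refine Eq.trans (Eq.trans ?_ h) ?_
    · exact Finset.sum_congr (Finset.ext fun x => by simp only [Finset.mem_univ])
        fun γ _ => by convert rfl
    rw [fibreCount, fibreCount]
    split_ifs <;> simp_all
  · rw [if_neg ha.ne']
    have hT' : T = univ.filter fun A => A ≠ 0 := Finset.filter_congr fun A _ => by
      rw [ZMod.natCast_self, zero_pow ha.ne', zero_smul, add_zero, det_one]
      exact and_iff_left one_ne_zero
    have hgl : (((univ.filter fun A : M₁ => A ≠ 0).filter fun A => ¬A.det = 0).card : ℝ) =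
        ((p : ℝ) ^ 2 - 1) * ((p : ℝ) ^ 2 - p) := by
      have e : ((univ.filter fun A : M₁ => A ≠ 0).filter fun A => ¬A.det = 0).card =
          Nat.card (GL (Fin 2) (ZMod p)) := by
        rw [Nat.card_eq_fintype_card, ← Finset.card_univ]
        refine (Finset.card_bij (fun g _ => g.val) (fun g _ => ?_) (fun a _ b _ e => Units.ext e)
          fun A hA => ?_).symm
        · have hd := ((Matrix.isUnit_iff_isUnit_det g.val).mp g.isUnit).ne_zero
          exact Finset.mem_filter.mpr ⟨Finset.mem_filter.mpr ⟨Finset.mem_univ _,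
            fun h => hd (by rw [h, det_zero])⟩, hd⟩
        · exact ⟨Matrix.GeneralLinearGroup.mkOfDetNeZero A (Finset.mem_filter.mp hA).2,
            Finset.mem_univ _, rfl⟩
      rw [e, FA.TraceDist.card_gl2, ZMod.card, Nat.cast_mul,
        Nat.cast_sub (Nat.one_le_pow _ _ hp.out.pos), Nat.cast_sub (Nat.le_self_pow two_ne_zero p),
        Nat.cast_pow, Nat.cast_one]
    have hrk : (((univ.filter fun A : M₁ => A ≠ 0).filter fun A => A.det = 0).card : ℝ) =
        ((p : ℝ) + 1) * ((p : ℝ) ^ 2 - 1) := by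
      have e1 := Finset.card_filter_add_card_filter_not (s := univ.filter fun A : M₁ => A ≠ 0)
        (fun A => A.det = 0)
      have hM : Fintype.card M₁ = p ^ 4 := by
        show Fintype.card (Fin 2 → Fin 2 → ZMod p) = _
        rw [Fintype.card_fun, Fintype.card_fun, ZMod.card, Fintype.card_fin, ← pow_mul]
      have e2 : ((univ.filter fun A : M₁ => A ≠ 0).card : ℝ) + 1 = (p : ℝ) ^ 4 := by
        rw [Finset.filter_ne', ← Nat.cast_add_one, Finset.card_erase_add_one (Finset.mem_univ _),
          Finset.card_univ, hM, Nat.cast_pow]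
      rw [← e1, Nat.cast_add, hgl] at e2
      linear_combination e2
    rw [hT', ← Finset.sum_filter_add_sum_filter_not _ (fun A : M₁ => A.det = 0),
      Finset.sum_congr rfl (g := fun _ => fibreCount p c True) fun A hA => by
        rw [eq_true (Finset.mem_filter.mp hA).2],
      Finset.sum_congr (s₁ := (univ.filter fun A : M₁ => A ≠ 0).filter fun A => ¬A.det = 0) rfl
        (g := fun _ => fibreCount p c False) fun A hA => by
        rw [eq_false (Finset.mem_filter.mp hA).2],
      Finset.sum_const, Finset.sum_const, nsmul_eq_mul, nsmul_eq_mul, hgl, hrk, fibreCount,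
      fibreCount]
    split_ifs <;> simp_all

/-- The proportion of the `g` with `g - 1` of that shape. -/
def shapeDensity (p a c : ℕ) : ℝ :=
  if a = 0 then (if c = 0 then 1 - ((p : ℝ) ^ 3 - 2 * p) / (((p : ℝ) ^ 2 - 1) * ((p : ℝ) ^ 2 - p))
    else ((p : ℝ) ^ 3 - 2 * p - 1) * ((p : ℝ) - 1) /
      (((p : ℝ) ^ 2 - 1) * ((p : ℝ) ^ 2 - p) * (p : ℝ) ^ c))
  else (if c = 0 then 1 / (p : ℝ) ^ (4 * a)
    else ((p : ℝ) ^ 2 - 1) ^ 2 / (((p : ℝ) ^ 2 - 1) * ((p : ℝ) ^ 2 - p) * (p : ℝ) ^ (4 * a + c)))

theorem card_shape_div (a c : ℕ) :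
    (Nat.card {g : GL (Fin 2) R[a + (c + 1)] // Shape a c (g.val - 1)} : ℝ) /
      Nat.card (GL (Fin 2) R[a + (c + 1)]) = shapeDensity p a c := by
  rw [natCard_shape, card_goodY, show (Nat.card (GL (Fin 2) R[a + (c + 1)]) : ℝ) =
    (p : ℝ) ^ (4 * (a + c)) * (((p : ℝ) ^ 2 - 1) * ((p : ℝ) ^ 2 - p)) from card_gl2_succ (a + c),
    shapeDensity]
  have h2 : (2 : ℝ) ≤ p := by exact_mod_cast hp.out.two_le
  have a1 : (p : ℝ) ^ 2 - 1 ≠ 0 := by nlinarith
  have a2 : (p : ℝ) ^ 2 - p ≠ 0 := by nlinarith
  have a3 : (p : ℝ) ≠ 0 := by linarith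
  have a4 : (p : ℝ) - 1 ≠ 0 := by linarith
  split_ifs with ha hc hc
  · subst ha hc
    field_simp
    ring
  · subst ha
    rw [zero_add, show 4 * c = 3 * c + c by ring, pow_add]
    field_simp
  · subst hc
    rw [add_zero]
    field_simp
  · rw [show 4 * (a + c) = 3 * c + (4 * a + c) by ring, pow_add]
    field_simp
    ring

end FA.LPart

end
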