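import Fermat.Agent.LPart.Count
import Fermat.Agent.OrderDensity.Lift
import Fermat.Agent.BashmakovDensity.Fibre
import Fermat.Agent.ReducedGroups.Basic
import Fermat.Agent.Root.SummaryChebotarev

/-!
# The primes with given `p`-part of `E(𝔽_q)`

At a good prime `q ≠ p` the points of `E(𝔽_q)` killed by `pⁿ` form the kernel of `σ - 1` on
`E[pⁿ]`, `σ` a Frobenius, so the shape of the `p`-part is that of `σ - 1`, and Chebotarev gives
the densities.
-/

set_option autoImplicit false
set_option linter.style.haveILetI false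
set_option linter.unusedSectionVars false

noncomputable section

open Matrix WeierstrassCurve NumberField IsDedekindDomain FA.Frob FA.EC FA.PointDiv
open FA.RT.Tate (Pts)
open scoped WeierstrassCurve.Affine Classical

local notation "Qb" => AlgebraicClosure ℚ
local notation "GQ" => AlgebraicClosure ℚ ≃ₐ[ℚ] AlgebraicClosure ℚ

namespace FA.LPart

/-- The primary component is the part killed by `p^(b+1)` as soon as that is killed by `pᵇ`. -/
theorem primaryComponent_iff {G : Type*} [AddCommGroup G] {p b : ℕ} {A : Type*} [AddCommGroup A]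
    (hA : ∀ x : A, p ^ b • x = 0) :
    Nonempty (AddCommGroup.primaryComponent G p ≃+ A) ↔
      Nonempty ((nsmulAddMonoidHom (α := G) (p ^ (b + 1))).ker ≃+ A) := by
  have hmem : ∀ x : G, x ∈ (nsmulAddMonoidHom (α := G) (p ^ (b + 1))).ker ↔
      p ^ (b + 1) • x = 0 := fun x => Iff.rfl
  have heq : (∀ x : G, p ^ (b + 1) • x = 0 → p ^ b • x = 0) →
      AddCommGroup.primaryComponent G p = (nsmulAddMonoidHom (α := G) (p ^ (b + 1))).ker := by
    intro h
    ext x
    rw [AddCommGroup.mem_primaryComponent, hmem]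
    refine ⟨fun ⟨k, hk⟩ => ?_, fun hx => ⟨b + 1, hx⟩⟩
    suffices hs : ∀ (k : ℕ) (x : G), p ^ k • x = 0 → p ^ b • x = 0 by
      rw [pow_succ', mul_nsmul', hs k x hk, nsmul_zero]
    intro k
    induction k with
    | zero =>
      intro x hx
      rw [pow_zero, one_nsmul] at hx
      rw [hx, nsmul_zero]
    | succ k ih =>
      intro x hx
      refine h x ?_
      rw [pow_succ, mul_nsmul', ih (p • x) (by rw [← mul_nsmul', ← pow_succ, hx])]
  constructor
  · rintro ⟨e⟩
    have h : ∀ x : G, p ^ (b + 1) • x = 0 → p ^ b • x = 0 := fun x hx => by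
      have h1 : p ^ b • (⟨x, AddCommGroup.mem_primaryComponent.mpr ⟨b + 1, hx⟩⟩ :
          AddCommGroup.primaryComponent G p) = 0 :=
        e.injective (by rw [map_nsmul, hA, map_zero])
      exact congrArg Subtype.val h1
    exact ⟨(AddEquiv.addSubgroupCongr (heq h)).symm.trans e⟩
  · rintro ⟨e⟩
    have h : ∀ x : G, p ^ (b + 1) • x = 0 → p ^ b • x = 0 := fun x hx => by
      have h1 : p ^ b • (⟨x, hx⟩ : (nsmulAddMonoidHom (α := G) (p ^ (b + 1))).ker) = 0 :=
        e.injective (by rw [map_nsmul, hA, map_zero])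
      exact congrArg Subtype.val h1
    exact ⟨(AddEquiv.addSubgroupCongr (heq h)).trans e⟩

variable {W : WeierstrassCurve ℤ} [(ratCurve W).IsElliptic] {p : ℕ} [hp : Fact p.Prime]

/-- The fixed torsion points. -/
def fixedTors (n : ℕ) (σ : GQ) : AddSubgroup (Pts W) where
  carrier := {Q | p ^ n • Q = 0 ∧ σ • Q = Q}
  zero_mem' := ⟨nsmul_zero _, FA.Local.gal_smul_zero (ratCurve W) σ⟩
  add_mem' := fun {a b} ha hb => ⟨by rw [nsmul_add, ha.1, hb.1, add_zero], by
    rw [FA.Local.gal_smul_add (ratCurve W) σ, ha.2, hb.2]⟩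
  neg_mem' := fun {a} ha => ⟨by rw [neg_nsmul, ha.1, neg_zero], by
    rw [← zero_sub, FA.Local.gal_smul_sub (ratCurve W) σ, ha.2,
      FA.Local.gal_smul_zero (ratCurve W) σ]⟩

/-- **The torsion modulo `q` is the fixed torsion**, as groups. -/
theorem nonempty_fixedTors_equiv {n q : ℕ} [hq : Fact q.Prime] (hgood : W.IsGoodPrimeFor q)
    (hqp : q ≠ p) {A : ValuationSubring Qb} (hA : A.LiesOverPrime q) {σ : GQ}
    (hσ : A.IsFrobeniusAt σ q) :
    Nonempty ((nsmulAddMonoidHom (α := (W.map (Int.castRingHom (ZMod q))).toAffine.Point)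
      (p ^ n)).ker ≃+ fixedTors (W := W) (p := p) n σ) := by
  haveI : CharP (Res A) q := residueField_charP A hq.out hA
  haveI := reductionMod_isElliptic W hgood
  haveI := redCurve_isElliptic (intCoeff_ratCurve W A) (valuation_Δ_ratCurve W hq.out hA hgood)
  set r := redHom (intCoeff_ratCurve W A) (valuation_Δ_ratCurve W hq.out hA hgood) with hr
  set m := mapHom (ZMod.castHom (dvd_refl q) (Res A)) (map_castHom W (A := A)) with hm
  have hinj : Function.Injective m :=
    mapHom_injective (ZMod.castHom (dvd_refl q) (Res A)) (map_castHom W (A := A))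
  choose g hg using fun Q : fixedTors (W := W) (p := p) n σ =>
    FA.BashmakovDensity.exists_red_eq_of_fixed hgood hA hσ Q.2.2
  have hg' : ∀ Q, g Q ∈ (nsmulAddMonoidHom
      (α := (W.map (Int.castRingHom (ZMod q))).toAffine.Point) (p ^ n)).ker := fun Q =>
    hinj (by
      show m (p ^ n • g Q) = m 0
      rw [map_nsmul, map_zero, hm, hg, ← map_nsmul, Q.2.1, map_zero])
  let φ : fixedTors (W := W) (p := p) n σ →+ (nsmulAddMonoidHom
      (α := (W.map (Int.castRingHom (ZMod q))).toAffine.Point) (p ^ n)).ker :=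
    AddMonoidHom.mk' (fun Q => ⟨g Q, hg' Q⟩) fun Q Q' => Subtype.ext (hinj (by
      show m (g (Q + Q')) = m (g Q + g Q')
      rw [map_add, hm, hg, hg, hg, AddSubgroup.coe_add, map_add]))
  have hsurj : Function.Surjective φ := fun R => by
    obtain ⟨Q, hQ, hσQ, hrQ⟩ := FA.OrderDensity.exists_fixed_lift (n := n) hp.out hgood hqp hA hσ
      (Z := 0) (FA.Local.gal_smul_zero (ratCurve W) σ) (R := R.1) (by
        rw [show p ^ n • R.1 = 0 from R.2, map_zero]
        exact (map_zero _).symm)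
    refine ⟨⟨Q, hQ, hσQ⟩, Subtype.ext (hinj ?_)⟩
    show m (g _) = m R.1
    rw [hm, hg]
    exact hrQ
  have hcard : Nat.card (fixedTors (W := W) (p := p) n σ) = Nat.card (nsmulAddMonoidHom
      (α := (W.map (Int.castRingHom (ZMod q))).toAffine.Point) (p ^ n)).ker :=
    (FA.ReducedGroups.natCard_torsion_reduction W hgood
      (fun e => hqp ((Nat.prime_dvd_prime_iff_eq hq.out hp.out).mp (hq.out.dvd_of_dvd_pow e)))
      hA hσ).symm
  haveI : Finite (fixedTors (W := W) (p := p) n σ) :=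
    Nat.finite_of_card_ne_zero (hcard.trans_ne Nat.card_pos.ne')
  exact ⟨(AddEquiv.ofBijective φ ((Nat.bijective_iff_surjective_and_card φ).mpr
    ⟨hsurj, hcard⟩)).symm⟩

/-- **The representation on the `pⁿ`-torsion in coordinates**, with the kernel of `σ - 1`; it is
onto when Galois induces every automorphism. -/
theorem exists_rep (n : ℕ) :
    ∃ ρ : GQ →* GL (Fin 2) (ZMod (p ^ n)), IsOpen (ρ.ker : Set GQ) ∧
      (∀ σ, Nonempty (fixedTors (W := W) (p := p) n σ ≃+ kerMat ((ρ σ).val - 1))) ∧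
      (∀ σ, ρ σ = 1 → ∀ Q : Pts W, p ^ n • Q = 0 → σ • Q = Q) ∧
      ((∀ φ : Submodule.torsionBy ℤ ((ratCurve W).toAffine⁄Qb).Point ((p : ℤ) ^ n) ≃+
          Submodule.torsionBy ℤ ((ratCurve W).toAffine⁄Qb).Point ((p : ℤ) ^ n),
        ∃ σ : GQ, ∀ T, Affine.Point.map σ.toAlgHom T.1 = (φ T).1) → Function.Surjective ρ) := by
  obtain ⟨e⟩ := FA.Bashmakov.exists_torsion_coord (ratCurve W) p n
  have hT : ∀ {y : Pts W},
      y ∈ Submodule.torsionBy ℤ ((ratCurve W).toAffine⁄Qb).Point ((p : ℤ) ^ n) ↔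
        p ^ n • y = 0 :=
    fun {y} => by rw [Submodule.mem_torsionBy_iff, ← Nat.cast_pow, natCast_zsmul]
  have hstab : ∀ (τ : GQ) (T : Submodule.torsionBy ℤ ((ratCurve W).toAffine⁄Qb).Point
      ((p : ℤ) ^ n)), τ • T.1 ∈
        Submodule.torsionBy ℤ ((ratCurve W).toAffine⁄Qb).Point ((p : ℤ) ^ n) := fun τ T => by
    rw [hT, ← smul_nat, hT.mp T.2]
    exact FA.Local.gal_smul_zero (ratCurve W) τ
  let u : GQ → (Fin 2 → ZMod (p ^ n)) →ₗ[ZMod (p ^ n)] (Fin 2 → ZMod (p ^ n)) := fun σ =>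
    AddMonoidHom.toZModLinearMap (p ^ n)
      (AddMonoidHom.mk' (fun v => e.symm ⟨σ • (e v).1, hstab σ (e v)⟩) fun a b => by
        rw [← map_add]
        refine congrArg e.symm (Subtype.ext ?_)
        show σ • (e (a + b)).1 = σ • (e a).1 + σ • (e b).1
        rw [map_add, Submodule.coe_add, FA.Local.gal_smul_add (ratCurve W) σ])
  have hu : ∀ σ v, LinearMap.toMatrix' (u σ) *ᵥ v = e.symm ⟨σ • (e v).1, hstab σ (e v)⟩ :=
    fun σ v => by rw [← Matrix.toLin'_apply, Matrix.toLin'_toMatrix']; rfl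
  let M : GQ →* Matrix (Fin 2) (Fin 2) (ZMod (p ^ n)) :=
    { toFun := fun σ => LinearMap.toMatrix' (u σ)
      map_one' := Matrix.ext_of_mulVec_single fun l => by
        rw [hu, one_mulVec]
        exact e.injective (by rw [AddEquiv.apply_symm_apply]; exact Subtype.ext (one_smul GQ _))
      map_mul' := fun σ τ => Matrix.ext_of_mulVec_single fun l => by
        rw [← mulVec_mulVec, hu, hu, hu]
        refine congrArg e.symm (Subtype.ext ?_)
        simp only [AddEquiv.apply_symm_apply]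
        exact mul_smul σ τ _ }
  refine ⟨M.toHomUnits, ?_, fun σ => ?_, fun σ hσ Q hQ => ?_, fun hfull g => ?_⟩
  · haveI : NeZero (p ^ n) := ⟨pow_ne_zero _ hp.out.ne_zero⟩
    refine Subgroup.isOpen_mono (fun σ hσ => ?_)
      (FA.TraceDist.isOpen_ker_glLevel (W := W) (N := p ^ n))
    rw [MonoidHom.mem_ker] at hσ ⊢
    refine Units.ext (Matrix.ext_of_mulVec_single fun l => ?_)
    show LinearMap.toMatrix' (u σ) *ᵥ _ = (1 : Matrix (Fin 2) (Fin 2) (ZMod (p ^ n))) *ᵥ _
    rw [hu, one_mulVec]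
    refine e.injective ?_
    rw [AddEquiv.apply_symm_apply]
    exact Subtype.ext ((FA.TraceDist.repLevel_eq_one_iff σ).mp (congrArg Units.val hσ) _
      (hT.mp (e _).2))
  · have key : ∀ v, v ∈ kerMat ((M.toHomUnits σ).val - 1) ↔ σ • (e v).1 = (e v).1 := fun v => by
      rw [mem_kerMat, sub_mulVec, one_mulVec, sub_eq_zero]
      show LinearMap.toMatrix' (u σ) *ᵥ v = v ↔ _
      rw [hu, AddEquiv.symm_apply_eq, Subtype.ext_iff]
    exact ⟨
      { toFun := fun Q => ⟨e.symm ⟨Q.1, hT.mpr Q.2.1⟩, (key _).mpr (by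
          rw [AddEquiv.apply_symm_apply]; exact Q.2.2)⟩
        invFun := fun v => ⟨(e v.1).1, hT.mp (e v.1).2, (key v.1).mp v.2⟩
        left_inv := fun Q => Subtype.ext (by simp)
        right_inv := fun v => Subtype.ext (by simp)
        map_add' := fun Q Q' => Subtype.ext (by
          show e.symm _ = e.symm _ + e.symm _
          rw [← map_add]
          rfl) }⟩
  · have h1 : LinearMap.toMatrix' (u σ) *ᵥ e.symm ⟨Q, hT.mpr hQ⟩ = e.symm ⟨Q, hT.mpr hQ⟩ := by
      rw [show LinearMap.toMatrix' (u σ) = 1 from congrArg Units.val hσ, one_mulVec]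
    rw [hu] at h1
    have h2 := congrArg Subtype.val (e.symm.injective h1)
    rw [AddEquiv.apply_symm_apply] at h2
    exact h2
  · let ug : (Fin 2 → ZMod (p ^ n)) ≃+ (Fin 2 → ZMod (p ^ n)) :=
      { toFun := fun v => g.val *ᵥ v
        invFun := fun v => (g⁻¹).val *ᵥ v
        left_inv := fun v => by
          show (g⁻¹).val *ᵥ (g.val *ᵥ v) = v
          rw [mulVec_mulVec, ← Units.val_mul, inv_mul_cancel, Units.val_one, one_mulVec]
        right_inv := fun v => by
          show g.val *ᵥ ((g⁻¹).val *ᵥ v) = v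
          rw [mulVec_mulVec, ← Units.val_mul, mul_inv_cancel, Units.val_one, one_mulVec]
        map_add' := fun v w => mulVec_add _ v w }
    obtain ⟨σ, hσ⟩ := hfull ((e.symm.trans ug).trans e)
    refine ⟨σ, Units.ext (Matrix.ext_of_mulVec_single fun l => ?_)⟩
    show LinearMap.toMatrix' (u σ) *ᵥ _ = _
    rw [hu]
    refine e.injective ?_
    rw [AddEquiv.apply_symm_apply]
    refine Subtype.ext ((hσ _).trans ?_)
    simp only [AddEquiv.trans_apply, AddEquiv.symm_apply_apply]
    rfl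

/-- The shape of `g - 1` is a class function. -/
theorem shape_conj {a c : ℕ} {g : GL (Fin 2) (ZMod (p ^ (a + (c + 1))))}
    (hg : Shape a c (g.val - 1)) (z : GL (Fin 2) (ZMod (p ^ (a + (c + 1))))) :
    Shape a c ((z * g * z⁻¹).val - 1) := by
  obtain ⟨e⟩ := shape_ker hg
  refine shape_of_ker (AddEquiv.trans ?_ e)
  have key : ∀ v, (z * g * z⁻¹).val *ᵥ v = z.val *ᵥ (g.val *ᵥ ((z⁻¹).val *ᵥ v)) := fun v => by
    rw [mulVec_mulVec, mulVec_mulVec, Units.val_mul, Units.val_mul]
  have hz : ∀ v, (z⁻¹).val *ᵥ (z.val *ᵥ v) = v := fun v => by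
    rw [mulVec_mulVec, ← Units.val_mul, inv_mul_cancel, Units.val_one, one_mulVec]
  have hz' : ∀ v, z.val *ᵥ ((z⁻¹).val *ᵥ v) = v := fun v => by
    rw [mulVec_mulVec, ← Units.val_mul, mul_inv_cancel, Units.val_one, one_mulVec]
  exact
    { toFun := fun v => ⟨(z⁻¹).val *ᵥ v.1, by
        have h := mem_kerMat.mp v.2
        rw [sub_mulVec, one_mulVec, sub_eq_zero, key] at h
        rw [mem_kerMat, sub_mulVec, one_mulVec, sub_eq_zero]
        conv_rhs => rw [← h, hz]⟩
      invFun := fun v => ⟨z.val *ᵥ v.1, by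
        have h := mem_kerMat.mp v.2
        rw [sub_mulVec, one_mulVec, sub_eq_zero] at h
        rw [mem_kerMat, sub_mulVec, one_mulVec, sub_eq_zero, key, hz, h]⟩
      left_inv := fun v => Subtype.ext (hz' v.1)
      right_inv := fun v => Subtype.ext (hz v.1)
      map_add' := fun v w => Subtype.ext (mulVec_add _ v.1 w.1) }

/-- The shape of `g - 1`, for `g` giving the action of a Frobenius on `E[pⁿ]`, is that of the
`p`-part modulo `q`. -/
theorem shape_iff_primaryComponent {a c q : ℕ} [Fact q.Prime] (hgood : W.IsGoodPrimeFor q)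
    (hqp : q ≠ p) {A : ValuationSubring Qb} (hA : A.LiesOverPrime q) {σ : GQ}
    (hσ : A.IsFrobeniusAt σ q) {g : GL (Fin 2) (ZMod (p ^ (a + (c + 1))))}
    (hfix : Nonempty (fixedTors (W := W) (p := p) (a + (c + 1)) σ ≃+ kerMat (g.val - 1))) :
    Shape a c (g.val - 1) ↔ Nonempty (AddCommGroup.primaryComponent
        (W.map (Int.castRingHom (ZMod q))).toAffine.Point p ≃+
      ZMod (p ^ a) × ZMod (p ^ (a + c))) := by
  have hkill : ∀ x : ZMod (p ^ a) × ZMod (p ^ (a + c)), p ^ (a + c) • x = 0 := fun x => Prod.ext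
    (by rw [Prod.smul_fst, nsmul_eq_mul, Nat.cast_pow, pow_add, ← Nat.cast_pow, ZMod.natCast_self,
        zero_mul, zero_mul]; rfl)
    (by rw [Prod.smul_snd, nsmul_eq_mul, ZMod.natCast_self, zero_mul]; rfl)
  obtain ⟨e1⟩ := nonempty_fixedTors_equiv (W := W) (p := p) (n := a + c + 1) hgood hqp hA hσ
  obtain ⟨e2⟩ := hfix
  rw [primaryComponent_iff (b := a + c) hkill]
  exact ⟨fun h => let ⟨e⟩ := shape_ker h; ⟨(e1.trans e2).trans e⟩,
    fun ⟨e⟩ => shape_of_ker ((e1.trans e2).symm.trans e)⟩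

/-- **The density of the primes with given `p`-part of `E(𝔽_q)`.** -/
theorem hasDirichletDensity_primaryComponent (a c : ℕ)
    (hfull : ∀ φ : Submodule.torsionBy ℤ ((ratCurve W).toAffine⁄Qb).Point
          ((p : ℤ) ^ (a + (c + 1))) ≃+
        Submodule.torsionBy ℤ ((ratCurve W).toAffine⁄Qb).Point ((p : ℤ) ^ (a + (c + 1))),
      ∃ σ : GQ, ∀ T, Affine.Point.map σ.toAlgHom T.1 = (φ T).1) :
    {v : HeightOneSpectrum (𝓞 ℚ) | ∃ _ : Fact (Ideal.absNorm v.asIdeal).Prime,
      Nonempty (AddCommGroup.primaryComponent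
          (W.map (Int.castRingHom (ZMod (Ideal.absNorm v.asIdeal)))).toAffine.Point p ≃+
        ZMod (p ^ a) × ZMod (p ^ (a + c)))}.HasDirichletDensity (shapeDensity p a c) := by
  set n := a + (c + 1) with hn
  obtain ⟨ρ, hopen, hfix, -, hsur⟩ := exists_rep (W := W) (p := p) n
  have hρ := hsur hfull
  let X : Set (GL (Fin 2) (ZMod (p ^ n))) := {g | Shape a c (g.val - 1)}
  have hX : ∀ g ∈ X, ∀ z, z * g * z⁻¹ ∈ X := fun g hg z => shape_conj hg z
  haveI : NeZero (p ^ n) := ⟨pow_ne_zero _ hp.out.ne_zero⟩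
  have hd := FA.Chebotarev.hasDirichletDensity_frobSet ρ hρ hopen hX
  have hval : (Nat.card X : ℝ) / Fintype.card (GL (Fin 2) (ZMod (p ^ n))) =
      shapeDensity p a c := by
    rw [← Nat.card_eq_fintype_card]
    exact card_shape_div a c
  rw [hval] at hd
  set N : ℕ := W.Δ.natAbs * p with hN
  have hN0 : N ≠ 0 := by
    have hΔ : W.Δ.natAbs ≠ 0 := fun e => (ratCurve W).isUnit_Δ.ne_zero (by
      simp [ratCurve, Int.natAbs_eq_zero.mp e])
    simp [hN, hΔ, hp.out.ne_zero]
  refine FA.TraceDist.hasDirichletDensity_congr hd (finite_absNorm_dvd hN0) fun v hv => ?_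
  haveI := Fact.mk (FA.Chebotarev.absNorm_prime v)
  set q := Ideal.absNorm v.asIdeal
  have hgood : W.IsGoodPrimeFor q := fun e => hv ((Int.natCast_dvd.mp e).mul_right _)
  have hqp : q ≠ p := fun e => hv (show q ∣ N from e ▸ dvd_mul_left _ _)
  have key : ∀ (A : ValuationSubring Qb), A.LiesOverPrime q → ∀ σ : GQ, A.IsFrobeniusAt σ q →
      (ρ σ ∈ X ↔ Nonempty (AddCommGroup.primaryComponent
          (W.map (Int.castRingHom (ZMod q))).toAffine.Point p ≃+
        ZMod (p ^ a) × ZMod (p ^ (a + c)))) := by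
    intro A hA σ hσ
    exact shape_iff_primaryComponent hgood hqp hA hσ (hfix σ)
  constructor
  · intro hfr
    obtain ⟨A, hA⟩ := FA.Deform.exists_liesOverPrime (FA.Chebotarev.absNorm_prime v)
    obtain ⟨σ, hσ⟩ := FA.Deform.exists_isFrobeniusAt (FA.Chebotarev.absNorm_prime v) hA
    exact ⟨inferInstance, (key A hA σ hσ).mp (hfr A hA σ hσ)⟩
  · rintro ⟨_, h⟩ A hA σ hσ
    exact (key A hA σ hσ).mpr h

end FA.LPart

end
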