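import Fermat.Agent.TraceDistribution.Basic

/-!
# Full image at a level gives it at the divisors with the same prime factors

An automorphism of `E[d]` extends to `E[N]`: extend a basis; injectivity follows since the elements
of prime order lie in `E[d]`.
-/

set_option autoImplicit false
set_option linter.style.haveILetI false

noncomputable section

open WeierstrassCurve FA.Frob
open FA.RT.Tate (Pts)
open scoped WeierstrassCurve.Affine Classical

local notation "Qb" => AlgebraicClosure ℚ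
local notation "GQ" => AlgebraicClosure ℚ ≃ₐ[ℚ] AlgebraicClosure ℚ

namespace FA.LPart

/-- The extension. -/
theorem exists_extend_torsion {X : Type*} [AddCommGroup X] {d k : ℕ} [NeZero (d * k)]
    (hpr : ∀ l : ℕ, l.Prime → l ∣ d * k → l ∣ d)
    (e : (Fin 2 → ZMod (d * k)) ≃+ Submodule.torsionBy ℤ X ((d * k : ℕ) : ℤ))
    (φ : Submodule.torsionBy ℤ X (d : ℤ) ≃+ Submodule.torsionBy ℤ X (d : ℤ)) :
    ∃ ψ : Submodule.torsionBy ℤ X ((d * k : ℕ) : ℤ) ≃+ Submodule.torsionBy ℤ X ((d * k : ℕ) : ℤ),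
      ∀ x y, x.1 = y.1 → (ψ x).1 = (φ y).1 := by
  set T := Submodule.torsionBy ℤ X ((d * k : ℕ) : ℤ)
  have hT : ∀ {x : X}, x ∈ T ↔ (d * k) • x = 0 := fun {x} => by
    rw [Submodule.mem_torsionBy_iff, natCast_zsmul]
  have hk0 : k ≠ 0 := right_ne_zero_of_mul (NeZero.ne (d * k))
  -- what `d` kills is a multiple of `k`
  have hdiv : ∀ x : T, d • x.1 = 0 → ∃ z : T, k • z = x := fun x hx => by
    have hv : d • e.symm x = 0 := by
      rw [← map_nsmul, show d • x = 0 from Subtype.ext hx, map_zero]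
    have : ∀ i, ∃ w : ZMod (d * k), k • w = e.symm x i := fun i => by
      have h := congrFun hv i
      rw [Pi.smul_apply, Pi.zero_apply, nsmul_eq_mul, ← ZMod.natCast_zmod_val (e.symm x i),
        ← Nat.cast_mul, ZMod.natCast_eq_zero_iff] at h
      obtain ⟨w, hw⟩ := (Nat.mul_dvd_mul_iff_left (Nat.pos_of_ne_zero
        (left_ne_zero_of_mul (NeZero.ne (d * k))))).mp h
      exact ⟨(w : ZMod (d * k)), by rw [nsmul_eq_mul, ← Nat.cast_mul, ← hw, ZMod.natCast_zmod_val]⟩
    choose w hw using this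
    exact ⟨e w, by rw [← map_nsmul, show k • w = e.symm x from funext hw,
      AddEquiv.apply_symm_apply]⟩
  have hTd : ∀ y : Submodule.torsionBy ℤ X (d : ℤ), d • y.1 = 0 ∧ y.1 ∈ T := fun y => by
    have h : d • y.1 = 0 := by
      rw [← natCast_zsmul]; exact (Submodule.mem_torsionBy_iff _ _).mp y.2
    exact ⟨h, hT.mpr (by rw [mul_comm, mul_nsmul', h, nsmul_zero])⟩
  have hc : ∀ i : Fin 2, k • (e (Pi.single i 1)).1 ∈ Submodule.torsionBy ℤ X (d : ℤ) := fun i => by
    rw [Submodule.mem_torsionBy_iff, natCast_zsmul, ← mul_nsmul']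
    exact hT.mp (e (Pi.single i 1)).2
  choose z hz using fun i : Fin 2 => hdiv ⟨(φ ⟨_, hc i⟩).1, (hTd _).2⟩ (hTd _).1
  let f : Fin 2 → ZMod (d * k) →+ T := fun i => ZMod.lift (d * k) ⟨zmultiplesHom _ (z i), by
    rw [zmultiplesHom_apply, natCast_zsmul]
    exact Subtype.ext (hT.mp (z i).2)⟩
  let L : T →+ T :=
    ((f 0).comp (Pi.evalAddMonoidHom (fun _ : Fin 2 => ZMod (d * k)) 0) +
      (f 1).comp (Pi.evalAddMonoidHom (fun _ : Fin 2 => ZMod (d * k)) 1)).comp
      e.symm.toAddMonoidHom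
  have hagree : ∀ x : T, ∀ y : Submodule.torsionBy ℤ X (d : ℤ), x.1 = y.1 →
      (L x).1 = (φ y).1 := fun x y hxy => by
    obtain ⟨x', rfl⟩ := hdiv x (hxy ▸ (hTd y).1)
    obtain ⟨v, rfl⟩ := e.surjective x'
    have hv : v = (v 0).val • Pi.single 0 (1 : ZMod (d * k)) + (v 1).val • Pi.single 1 1 := by
      funext i
      rw [Pi.add_apply, Pi.smul_apply, Pi.smul_apply, nsmul_eq_mul, nsmul_eq_mul,
        ZMod.natCast_zmod_val, ZMod.natCast_zmod_val]
      fin_cases i <;> simp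
    have hy : y = (v 0).val • (⟨_, hc 0⟩ : Submodule.torsionBy ℤ X (d : ℤ)) +
        (v 1).val • ⟨_, hc 1⟩ := Subtype.ext (by
      rw [← hxy]
      show k • (e v).1 = (v 0).val • (k • (e _).1) + (v 1).val • (k • (e _).1)
      conv_lhs => rw [hv, map_add, map_nsmul, map_nsmul]
      rw [Submodule.coe_add, Submodule.coe_smul_of_tower, Submodule.coe_smul_of_tower, nsmul_add,
        smul_comm, smul_comm k])
    have hL : L (e v) = (v 0).val • z 0 + (v 1).val • z 1 := by
      have key : ∀ i, f i (v i) = (v i).val • z i := fun i => by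
        have h : f i (((v i).val : ℤ) : ZMod (d * k)) = ((v i).val : ℤ) • z i := ZMod.lift_coe _ _ _
        rwa [Int.cast_natCast, ZMod.natCast_zmod_val, natCast_zsmul] at h
      show f 0 (e.symm (e v) 0) + f 1 (e.symm (e v) 1) = _
      rw [AddEquiv.symm_apply_apply, key, key]
    rw [map_nsmul, hL, nsmul_add, smul_comm, smul_comm k (v 1).val, hz, hz, hy, map_add,
      map_nsmul, map_nsmul, Submodule.coe_add, Submodule.coe_add, Submodule.coe_smul_of_tower,
      Submodule.coe_smul_of_tower, Submodule.coe_smul_of_tower, Submodule.coe_smul_of_tower]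
  have hinj : Function.Injective L := (injective_iff_map_eq_zero L).mpr fun x hx => by
    by_contra h0
    haveI : Finite T := Finite.of_equiv _ e.toEquiv
    obtain ⟨l, hl, hlx⟩ := Nat.exists_prime_and_dvd
      (show addOrderOf x ≠ 1 from fun h => h0 (AddMonoid.addOrderOf_eq_one_iff.mp h))
    obtain ⟨m, hm⟩ := hlx
    have hm0 : m ≠ 0 := fun h => (addOrderOf_pos x).ne' (by rw [hm, h, mul_zero])
    have hord : addOrderOf (m • x) = l := by
      rw [addOrderOf_nsmul' x hm0, hm,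
        Nat.gcd_eq_right (dvd_mul_left m l), Nat.mul_div_left _ (Nat.pos_of_ne_zero hm0)]
    have hlN : l ∣ d * k := hord ▸ addOrderOf_dvd_of_nsmul_eq_zero (Subtype.ext (hT.mp (m • x).2))
    have hy : d • (m • x) = 0 :=
      addOrderOf_dvd_iff_nsmul_eq_zero.mp (hord.symm ▸ hpr l hl hlN)
    have h1 := hagree (m • x) ⟨(m • x).1, (Submodule.mem_torsionBy_iff _ _).mpr (by
      rw [natCast_zsmul]; exact congrArg Subtype.val hy)⟩ rfl
    rw [map_nsmul, hx, nsmul_zero, Submodule.coe_zero] at h1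
    have h2 : (⟨(m • x).1, (Submodule.mem_torsionBy_iff _ _).mpr (by
        rw [natCast_zsmul]; exact congrArg Subtype.val hy)⟩ :
          Submodule.torsionBy ℤ X (d : ℤ)) = 0 :=
      φ.injective (Subtype.ext (h1.symm.trans (by rw [map_zero]; rfl)))
    have h3 : m • x = 0 := Subtype.ext (congrArg Subtype.val h2 :)
    rw [h3, addOrderOf_zero] at hord
    exact hl.one_lt.ne hord
  haveI : Finite T := Finite.of_equiv _ e.toEquiv
  exact ⟨AddEquiv.ofBijective L ((Finite.injective_iff_bijective).mp hinj), hagree⟩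

/-- **Descent.** -/
theorem full_of_dvd {W : WeierstrassCurve ℤ} [(ratCurve W).IsElliptic] {N d : ℕ} [NeZero N]
    (hd : d ∣ N) (hpr : ∀ l : ℕ, l.Prime → l ∣ N → l ∣ d)
    (hfull : ∀ φ : Submodule.torsionBy ℤ ((ratCurve W)⁄Qb).Point (N : ℤ) ≃+
        Submodule.torsionBy ℤ ((ratCurve W)⁄Qb).Point (N : ℤ),
      ∃ σ : GQ, ∀ x, σ • x.1 = (φ x).1)
    (φ : Submodule.torsionBy ℤ ((ratCurve W)⁄Qb).Point (d : ℤ) ≃+
      Submodule.torsionBy ℤ ((ratCurve W)⁄Qb).Point (d : ℤ)) :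
    ∃ σ : GQ, ∀ x, σ • x.1 = (φ x).1 := by
  obtain ⟨k, rfl⟩ := hd
  obtain ⟨e⟩ := FA.PadicImage.nonempty_torsion_equiv W (N := d * k)
  obtain ⟨ψ, hψ⟩ := exists_extend_torsion hpr e.toAddEquiv φ
  obtain ⟨σ, hσ⟩ := hfull ψ
  refine ⟨σ, fun y => ?_⟩
  have hy : y.1 ∈ Submodule.torsionBy ℤ ((ratCurve W)⁄Qb).Point ((d * k : ℕ) : ℤ) :=
    Submodule.torsionBy_le_torsionBy_of_dvd _ _ (Int.natCast_dvd_natCast.mpr (dvd_mul_right d k))
      y.2
  exact (hσ ⟨y.1, hy⟩).trans (hψ ⟨y.1, hy⟩ y rfl)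

end FA.LPart

end
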