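import Fermat.Agent.LPart.Kernels

/-!
# The `p`-parts of `E(𝔽_q)` at finitely many primes `p` at once

When Galois induces every automorphism of `E[N]`, `N` the product of the levels, the
representations at the levels are jointly onto, so the local densities multiply.
-/

set_option autoImplicit false
set_option linter.style.haveILetI false
set_option linter.unusedSectionVars false

noncomputable section

open Matrix WeierstrassCurve NumberField IsDedekindDomain FA.Frob FA.EC
open FA.RT.Tate (Pts)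
open scoped WeierstrassCurve.Affine Classical

local notation "Qb" => AlgebraicClosure ℚ
local notation "GQ" => AlgebraicClosure ℚ ≃ₐ[ℚ] AlgebraicClosure ℚ

namespace FA.LPart

/-- `GL₂` of a product of coprime levels maps onto the product. -/
theorem exists_toPi_surjective {ι : Type*} [Fintype ι] (N : ι → ℕ)
    (hcop : Pairwise (Function.onFun Nat.Coprime N)) {K : ℕ} (hK : ∏ i, N i = K) :
    ∃ f : GL (Fin 2) (ZMod K) → ∀ i, GL (Fin 2) (ZMod (N i)), Function.Surjective f := by
  subst hK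
  let e : ZMod (∏ i, N i) ≃+* ∀ i, ZMod (N i) := ZMod.prodEquivPi _ hcop
  refine ⟨fun g i => Matrix.GeneralLinearGroup.map
    ((Pi.evalRingHom (fun i => ZMod (N i)) i).comp e.toRingHom) g, fun g => ?_⟩
  let M : Matrix (Fin 2) (Fin 2) (ZMod (∏ i, N i)) := .of fun a b => e.symm fun i => (g i).1 a b
  have hM : ∀ i, M.map ((Pi.evalRingHom (fun i => ZMod (N i)) i).comp e.toRingHom) = (g i).1 :=
    fun i => Matrix.ext fun a b => congrFun (e.apply_symm_apply _) i
  have hdet : IsUnit M.det := by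
    rw [← isUnit_map_iff e, Pi.isUnit_iff]
    intro i
    rw [show e M.det i = ((Pi.evalRingHom (fun i => ZMod (N i)) i).comp e.toRingHom) M.det
        from rfl,
      RingHom.map_det]
    refine (Matrix.isUnit_iff_isUnit_det _).mp ?_
    show IsUnit (M.map _)
    rw [hM]
    exact (g i).isUnit
  exact ⟨Matrix.GeneralLinearGroup.mk'' M hdet, funext fun i => Units.ext (hM i)⟩

variable {W : WeierstrassCurve ℤ} [(ratCurve W).IsElliptic]

/-- **Fixed at each of coprime levels is fixed at their product.** -/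
theorem smul_eq_self_of_forall (L : Finset ℕ) (hL : ∀ l ∈ L, l.Prime) (n : ℕ → ℕ) (σ : GQ)
    (h : ∀ l ∈ L, ∀ Q : Pts W, l ^ n l • Q = 0 → σ • Q = Q) :
    ∀ Q : Pts W, (∏ l ∈ L, l ^ n l) • Q = 0 → σ • Q = Q := by
  induction L using Finset.induction with
  | empty =>
    intro y hy
    rw [Finset.prod_empty, one_nsmul] at hy
    rw [hy]
    exact FA.Local.gal_smul_zero _ σ
  | @insert l J hlJ ih =>
    intro y hy
    rw [Finset.prod_insert hlJ] at hy
    set b := ∏ i ∈ J, i ^ n i
    have h1 : σ • (b • y) = b • y :=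
      h l (Finset.mem_insert_self _ _) _ (by rw [← mul_nsmul', hy])
    have h2 : σ • (l ^ n l • y) = l ^ n l • y :=
      ih (fun i hi => hL i (Finset.mem_insert_of_mem hi))
        (fun i hi => h i (Finset.mem_insert_of_mem hi)) _ (by rw [← mul_nsmul', mul_comm, hy])
    have hco : (l ^ n l).Coprime b := Nat.Coprime.prod_right fun i hi =>
      ((Nat.coprime_primes (hL l (Finset.mem_insert_self _ _))
        (hL i (Finset.mem_insert_of_mem hi))).mpr fun e => hlJ (e ▸ hi)).pow _ _
    obtain ⟨u, v, huv⟩ := Int.isCoprime_iff_nat_coprime.mpr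
      (show Nat.Coprime ((l ^ n l : ℕ) : ℤ).natAbs (b : ℤ).natAbs by simpa using hco)
    have hye : y = u • (l ^ n l • y) + v • (b • y) := by
      rw [← natCast_zsmul y (l ^ n l), ← natCast_zsmul y b, smul_smul, smul_smul, ← add_zsmul,
        huv, one_zsmul]
    calc σ • y = σ • (u • (l ^ n l • y) + v • (b • y)) := by rw [← hye]
      _ = u • (σ • (l ^ n l • y)) + v • (σ • (b • y)) := by
          rw [FA.Local.gal_smul_add, FA.RT.Tate.gal_smul_zsmul (W := W),
            FA.RT.Tate.gal_smul_zsmul (W := W)]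
      _ = y := by rw [h1, h2, ← hye]

/-- **The joint density**: the local densities multiply. -/
theorem hasDirichletDensity_joint (L : Finset ℕ) (hL : ∀ l ∈ L, l.Prime) (a c : ℕ → ℕ)
    (hfull : ∀ φ : Submodule.torsionBy ℤ ((ratCurve W)⁄Qb).Point
          ((∏ l ∈ L, l ^ (a l + (c l + 1)) : ℕ) : ℤ) ≃+
        Submodule.torsionBy ℤ ((ratCurve W)⁄Qb).Point
          ((∏ l ∈ L, l ^ (a l + (c l + 1)) : ℕ) : ℤ),
      ∃ σ : GQ, ∀ T, σ • T.1 = (φ T).1) :
    {v : HeightOneSpectrum (𝓞 ℚ) | ∃ _ : Fact (Ideal.absNorm v.asIdeal).Prime,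
      ∀ (l : ℕ) (_ : Fact l.Prime), l ∈ L → Nonempty (AddCommGroup.primaryComponent
          (W.map (Int.castRingHom (ZMod (Ideal.absNorm v.asIdeal)))).toAffine.Point l ≃+
        ZMod (l ^ a l) × ZMod (l ^ (a l + c l)))}.HasDirichletDensity
      (∏ l ∈ L, shapeDensity l (a l) (c l)) := by
  set n : ℕ → ℕ := fun l => a l + (c l + 1)
  haveI : ∀ l : L, Fact (l : ℕ).Prime := fun l => ⟨hL l l.2⟩
  haveI : ∀ l : L, NeZero ((l : ℕ) ^ (a l + (c l + 1))) :=
    fun l => ⟨pow_ne_zero _ (hL l l.2).ne_zero⟩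
  choose ρ hopen hfix hker hsur using fun l : L =>
    exists_rep (W := W) (p := (l : ℕ)) (a l + (c l + 1))
  let P : GQ →* ∀ l : L, GL (Fin 2) (ZMod ((l : ℕ) ^ (a l + (c l + 1)))) := MonoidHom.pi ρ
  have hPopen : IsOpen (P.ker : Set GQ) := by
    have e : (P.ker : Set GQ) = ⋂ l : L, ((ρ l).ker : Set GQ) := by
      ext σ
      simp [P, funext_iff]
    rw [e]
    exact isOpen_iInter_of_finite hopen
  set N := ∏ l ∈ L, l ^ (a l + (c l + 1)) with hN
  haveI : NeZero N := ⟨Finset.prod_ne_zero_iff.mpr fun l hl => pow_ne_zero _ (hL l hl).ne_zero⟩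
  have hsurP : Function.Surjective P := by
    have hk : P.ker ≤ (FA.TraceDist.glLevel W N).ker := fun σ hσ => by
      rw [MonoidHom.mem_ker] at hσ ⊢
      refine Units.ext ((FA.TraceDist.repLevel_eq_one_iff σ).mpr ?_)
      exact smul_eq_self_of_forall L hL n σ fun l hl =>
        hker ⟨l, hl⟩ σ (congrFun hσ ⟨l, hl⟩)
    obtain ⟨f, hf⟩ := exists_toPi_surjective (fun l : L => (l : ℕ) ^ (a l + (c l + 1)))
      (fun i j hij => ((Nat.coprime_primes (hL i i.2) (hL j j.2)).mpr
        fun h => hij (Subtype.ext h)).pow _ _) (K := N)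
      (Finset.prod_coe_sort L fun l => l ^ (a l + (c l + 1)))
    have hle := Nat.card_le_card_of_surjective f hf
    refine MonoidHom.range_eq_top.mp (Subgroup.eq_top_of_le_card _ ?_)
    refine hle.trans (Nat.le_of_dvd Nat.card_pos ?_)
    rw [← Nat.card_congr (Subgroup.topEquiv (G := GL (Fin 2) (ZMod N))).toEquiv,
      ← MonoidHom.range_eq_top.mpr (FA.TraceDist.glLevel_surjective hfull),
      ← Subgroup.index_ker, ← Subgroup.index_ker]
    exact Subgroup.index_dvd_of_le hk
  let X : Set (∀ l : L, GL (Fin 2) (ZMod ((l : ℕ) ^ (a l + (c l + 1))))) :=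
    {g | ∀ l : L, Shape (a l) (c l) ((g l).val - 1)}
  have hd := FA.Chebotarev.hasDirichletDensity_frobSet P hsurP hPopen (X := X)
    fun g hg z l => shape_conj (hg l) (z l)
  have hval : (Nat.card X : ℝ) /
      Fintype.card (∀ l : L, GL (Fin 2) (ZMod ((l : ℕ) ^ (a l + (c l + 1))))) =
      ∏ l ∈ L, shapeDensity l (a l) (c l) := by
    rw [← Nat.card_eq_fintype_card, ← Finset.prod_coe_sort L, Nat.card_pi,
      show Nat.card X = ∏ l : L, Nat.card {g : GL (Fin 2) (ZMod ((l : ℕ) ^ (a l + (c l + 1)))) //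
          Shape (a l) (c l) (g.val - 1)} from
        (Nat.card_congr (Equiv.subtypePiEquivPi (p := fun (l : L)
          (g : GL (Fin 2) (ZMod ((l : ℕ) ^ (a l + (c l + 1))))) =>
            Shape (a l) (c l) (g.val - 1)))).trans Nat.card_pi,
      Nat.cast_prod, Nat.cast_prod, ← Finset.prod_div_distrib]
    exact Finset.prod_congr rfl fun l _ => card_shape_div (a l) (c l)
  rw [hval] at hd
  have hΔ : W.Δ ≠ 0 := fun h => (ratCurve W).isUnit_Δ.ne_zero (by simp [ratCurve, h])
  refine FA.TraceDist.hasDirichletDensity_congr hd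
    (FA.Supersingular.finite_absNorm_mem (L ∪ W.Δ.natAbs.primeFactors)) fun v hv => ?_
  simp only [Finset.mem_union, Set.mem_ofPred_eq, not_or] at hv
  set q := Ideal.absNorm v.asIdeal
  have hq : q.Prime := FA.Chebotarev.absNorm_prime v
  haveI := Fact.mk hq
  have hgood : W.IsGoodPrimeFor q := fun hd => hv.2 (Nat.mem_primeFactors.mpr
    ⟨hq, Int.natCast_dvd.mp hd, Int.natAbs_ne_zero.mpr hΔ⟩)
  have key : ∀ (A : ValuationSubring Qb), A.LiesOverPrime q → ∀ σ : GQ, A.IsFrobeniusAt σ q →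
      ∀ l : L, (Shape (a l) (c l) ((ρ l σ).val - 1) ↔ Nonempty (AddCommGroup.primaryComponent
          (W.map (Int.castRingHom (ZMod q))).toAffine.Point l ≃+
        ZMod ((l : ℕ) ^ a l) × ZMod ((l : ℕ) ^ (a l + c l)))) := fun A hA σ hσ l =>
    shape_iff_primaryComponent hgood (fun e => hv.1 (e ▸ l.2)) hA hσ (hfix l σ)
  constructor
  · intro hm
    obtain ⟨A, hA⟩ := FA.Deform.exists_liesOverPrime hq
    obtain ⟨σ, hσ⟩ := FA.Deform.exists_isFrobeniusAt hq hA
    exact ⟨inferInstance, fun l hl' hl => (key A hA σ hσ ⟨l, hl⟩).mp (hm A hA σ hσ ⟨l, hl⟩)⟩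
  · rintro ⟨_, h⟩ A hA σ hσ l
    exact (key A hA σ hσ l).mpr (h l inferInstance l.2)

/-- The local densities are positive. -/
theorem shapeDensity_pos {p : ℕ} (hp : p.Prime) (a c : ℕ) : 0 < shapeDensity p a c := by
  have h2 : (2 : ℝ) ≤ p := by exact_mod_cast hp.two_le
  have a1 : (0 : ℝ) < (p : ℝ) ^ 2 - 1 := by nlinarith
  have a2 : (0 : ℝ) < (p : ℝ) ^ 2 - p := by nlinarith
  have a3 : (0 : ℝ) < p := by linarith
  have hG : (0 : ℝ) < ((p : ℝ) ^ 2 - 1) * ((p : ℝ) ^ 2 - p) := mul_pos a1 a2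
  have h4 : (4 : ℝ) ≤ (p : ℝ) ^ 2 := by nlinarith
  unfold shapeDensity
  split_ifs
  · rw [sub_pos, div_lt_one hG]
    nlinarith [mul_le_mul_of_nonneg_left h2 (pow_nonneg a3.le 3),
      mul_le_mul_of_nonneg_left h2 (sq_nonneg (p : ℝ))]
  · refine div_pos (mul_pos ?_ (by linarith)) (mul_pos hG (pow_pos a3 _))
    nlinarith [mul_le_mul_of_nonneg_left h4 a3.le]
  · positivity
  · exact div_pos (pow_pos a1 2) (mul_pos hG (pow_pos a3 _))

/-- **Every shape of `n₂`-part occurs with positive density** when Galois induces every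
automorphism of the torsion at the level one above. -/
theorem exists_density_killedBy_sq {n₁ n₂ : ℕ} (h : n₁ ∣ n₂) (hn : n₂ ≠ 0)
    (hfull : ∀ φ : Submodule.torsionBy ℤ ((ratCurve W)⁄Qb).Point
          ((∏ l ∈ n₂.primeFactors, l ^ (n₂.factorization l + 1) : ℕ) : ℤ) ≃+
        Submodule.torsionBy ℤ ((ratCurve W)⁄Qb).Point
          ((∏ l ∈ n₂.primeFactors, l ^ (n₂.factorization l + 1) : ℕ) : ℤ),
      ∃ σ : GQ, ∀ T, σ • T.1 = (φ T).1) :
    ∃ δ : ℝ, 0 < δ ∧ {v : HeightOneSpectrum (𝓞 ℚ) |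
      ∃ _ : Fact (Ideal.absNorm v.asIdeal).Prime,
      Nonempty ((nsmulAddMonoidHom
          (α := (W.map (Int.castRingHom (ZMod (Ideal.absNorm v.asIdeal)))).toAffine.Point)
          (n₂ ^ 2)).ker ≃+ ZMod n₁ × ZMod n₂)}.HasDirichletDensity δ := by
  have hn1 : n₁ ≠ 0 := fun e => hn (zero_dvd_iff.mp (e ▸ h))
  have hle : ∀ l, n₁.factorization l ≤ n₂.factorization l :=
    fun l => (Nat.factorization_le_iff_dvd hn1 hn).mpr h l
  rw [show ∏ l ∈ n₂.primeFactors, l ^ (n₂.factorization l + 1) =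
    ∏ l ∈ n₂.primeFactors, l ^ (n₁.factorization l +
      (n₂.factorization l - n₁.factorization l + 1)) from
    Finset.prod_congr rfl fun l _ => by congr 1; have := hle l; omega] at hfull
  have hd := hasDirichletDensity_joint (W := W) n₂.primeFactors
    (fun l hl => Nat.prime_of_mem_primeFactors hl) (fun l => n₁.factorization l)
    (fun l => n₂.factorization l - n₁.factorization l) hfull
  refine ⟨∏ l ∈ n₂.primeFactors,
      shapeDensity l (n₁.factorization l) (n₂.factorization l - n₁.factorization l),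
    Finset.prod_pos fun l hl => shapeDensity_pos (Nat.prime_of_mem_primeFactors hl) _ _, ?_⟩
  convert hd using 3 with v
  refine exists_congr fun _ => (killedBy_sq_iff h hn).trans ?_
  refine forall_congr' fun l => forall_congr' fun _ => forall_congr' fun _ => ?_
  rw [Nat.add_sub_cancel' (hle l)]

end FA.LPart

end
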