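import Fermat.Agent.LPart.Density

/-!
# Kernels of multiplication at coprime levels

The isomorphism class of the part of an abelian group killed by a product of coprime numbers is that
of the parts killed by the factors.
-/

set_option autoImplicit false
set_option linter.style.haveILetI false

noncomputable section

namespace FA.LPart

variable {G H : Type*} [AddCommGroup G] [AddCommGroup H]

/-- The part killed by `m`. -/
abbrev killedBy (G : Type*) [AddCommGroup G] (m : ℕ) : AddSubgroup G :=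
  (nsmulAddMonoidHom (α := G) m).ker

theorem mem_killedBy {m : ℕ} {x : G} : x ∈ killedBy G m ↔ m • x = 0 := Iff.rfl

/-- An isomorphism at a level restricts to its divisors. -/
theorem nonempty_killedBy_of_dvd {d m : ℕ} (hd : d ∣ m) (e : killedBy G m ≃+ killedBy H m) :
    Nonempty (killedBy G d ≃+ killedBy H d) := by
  obtain ⟨k, rfl⟩ := hd
  have hG : ∀ x : killedBy G d, x.1 ∈ killedBy G (d * k) := fun x => by
    rw [mem_killedBy, mul_nsmul, mem_killedBy.mp x.2, nsmul_zero]
  have hH : ∀ x : killedBy H d, x.1 ∈ killedBy H (d * k) := fun x => by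
    rw [mem_killedBy, mul_nsmul, mem_killedBy.mp x.2, nsmul_zero]
  have hto : ∀ x : killedBy G d, (e ⟨x.1, hG x⟩).1 ∈ killedBy H d := fun x => by
    rw [mem_killedBy, ← AddSubgroup.coe_nsmul, ← map_nsmul,
      show d • (⟨x.1, hG x⟩ : killedBy G (d * k)) = 0 from Subtype.ext (mem_killedBy.mp x.2),
      map_zero, ZeroMemClass.coe_zero]
  have hinv : ∀ x : killedBy H d, (e.symm ⟨x.1, hH x⟩).1 ∈ killedBy G d := fun x => by
    rw [mem_killedBy, ← AddSubgroup.coe_nsmul, ← map_nsmul,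
      show d • (⟨x.1, hH x⟩ : killedBy H (d * k)) = 0 from Subtype.ext (mem_killedBy.mp x.2),
      map_zero, ZeroMemClass.coe_zero]
  exact ⟨{
    toFun := fun x => ⟨(e ⟨x.1, hG x⟩).1, hto x⟩
    invFun := fun x => ⟨(e.symm ⟨x.1, hH x⟩).1, hinv x⟩
    left_inv := fun x => Subtype.ext
      (congrArg Subtype.val (e.symm_apply_apply ⟨x.1, hG x⟩) :)
    right_inv := fun x => Subtype.ext
      (congrArg Subtype.val (e.apply_symm_apply ⟨x.1, hH x⟩) :)
    map_add' := fun x y => Subtype.ext (congrArg Subtype.val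
      (map_add e ⟨x.1, hG x⟩ ⟨y.1, hG y⟩) :) }⟩

/-- Coprime levels split. -/
theorem nonempty_killedBy_mul (G : Type*) [AddCommGroup G] {u v : ℕ} (h : u.Coprime v) :
    Nonempty (killedBy G (u * v) ≃+ killedBy G u × killedBy G v) := by
  obtain ⟨s, t, hst⟩ := Int.isCoprime_iff_nat_coprime.mpr
    (show Nat.Coprime (u : ℤ).natAbs (v : ℤ).natAbs by simpa using h)
  have hsum : ∀ x : killedBy G u × killedBy G v, x.1.1 + x.2.1 ∈ killedBy G (u * v) := fun x => by
    rw [mem_killedBy, nsmul_add, mul_nsmul, mem_killedBy.mp x.1.2, nsmul_zero, zero_add,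
      mul_comm, mul_nsmul, mem_killedBy.mp x.2.2, nsmul_zero]
  let φ : killedBy G u × killedBy G v →+ killedBy G (u * v) :=
    AddMonoidHom.mk' (fun x => ⟨x.1.1 + x.2.1, hsum x⟩) fun x y => Subtype.ext (by
      show x.1.1 + y.1.1 + (x.2.1 + y.2.1) = x.1.1 + x.2.1 + (y.1.1 + y.2.1)
      abel)
  refine ⟨(AddEquiv.ofBijective φ ⟨(injective_iff_map_eq_zero φ).mpr fun x hx => ?_,
    fun z => ?_⟩).symm⟩
  · have hx' : x.1.1 + x.2.1 = 0 := congrArg Subtype.val hx
    have hu : u • x.1.1 = 0 := x.1.2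
    have hv : v • x.1.1 = 0 := by
      rw [eq_neg_of_add_eq_zero_left hx', neg_nsmul, show v • x.2.1 = 0 from x.2.2, neg_zero]
    have h0 : x.1.1 = 0 := by
      rw [← one_zsmul x.1.1, ← hst, add_zsmul, mul_zsmul, mul_zsmul, natCast_zsmul, natCast_zsmul,
        hu, hv, zsmul_zero, zsmul_zero, add_zero]
    exact Prod.ext (Subtype.ext h0) (Subtype.ext (by rwa [h0, zero_add] at hx'))
  · have hz : (u * v) • z.1 = 0 := z.2
    refine ⟨(⟨t • (v • z.1), ?_⟩, ⟨s • (u • z.1), ?_⟩), Subtype.ext ?_⟩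
    · rw [mem_killedBy, smul_comm, ← mul_nsmul', hz, zsmul_zero]
    · rw [mem_killedBy, smul_comm, ← mul_nsmul', mul_comm, hz, zsmul_zero]
    · show t • (v • z.1) + s • (u • z.1) = z.1
      rw [← natCast_zsmul z.1 v, ← natCast_zsmul z.1 u, smul_smul, smul_smul, ← add_zsmul, add_comm,
        hst, one_zsmul]

/-- Iff at coprime levels. -/
theorem nonempty_killedBy_prod_iff (J : Finset ℕ) (m : ℕ → ℕ)
    (hm : (J : Set ℕ).Pairwise (Function.onFun Nat.Coprime m)) :
    Nonempty (killedBy G (∏ l ∈ J, m l) ≃+ killedBy H (∏ l ∈ J, m l)) ↔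
      ∀ l ∈ J, Nonempty (killedBy G (m l) ≃+ killedBy H (m l)) := by
  refine ⟨fun ⟨e⟩ l hl => nonempty_killedBy_of_dvd (Finset.dvd_prod_of_mem m hl) e, fun h => ?_⟩
  induction J using Finset.induction with
  | empty =>
    rw [Finset.prod_empty]
    exact ⟨{ toFun := fun _ => 0
             invFun := fun _ => 0
             left_inv := fun x => Subtype.ext ((one_nsmul x.1).symm.trans x.2).symm
             right_inv := fun x => Subtype.ext ((one_nsmul x.1).symm.trans x.2).symm
             map_add' := fun _ _ => (add_zero _).symm }⟩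
  | @insert l J hlJ ih =>
    rw [Finset.prod_insert hlJ]
    have hco : (m l).Coprime (∏ i ∈ J, m i) := Nat.Coprime.prod_right fun i hi =>
      hm (Finset.mem_insert_self _ _) (Finset.mem_insert_of_mem hi) fun e => hlJ (e ▸ hi)
    obtain ⟨e1⟩ := nonempty_killedBy_mul G hco
    obtain ⟨e2⟩ := nonempty_killedBy_mul H hco
    obtain ⟨e3⟩ := h l (Finset.mem_insert_self _ _)
    obtain ⟨e4⟩ := ih (hm.mono (Finset.coe_subset.mpr (Finset.subset_insert _ _)))
      fun i hi => h i (Finset.mem_insert_of_mem hi)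
    exact ⟨(e1.trans (e3.prodCongr e4)).trans e2.symm⟩

/-- The kernel of `m` on `ℤ/n`. -/
theorem nonempty_killedBy_zmod (n m d : ℕ) [NeZero n] (hd : n.gcd m = d) :
    Nonempty (killedBy (ZMod n) m ≃+ ZMod d) := by
  have hc : Nat.card (killedBy (ZMod n) m) = d := by
    rw [show Nat.card (killedBy (ZMod n) m) = (Nat.card (ZMod n)).gcd m from
      IsAddCyclic.card_nsmulAddMonoidHom_ker _ m, Nat.card_zmod, hd]
  subst hc
  exact ⟨(zmodAddCyclicAddEquiv inferInstance).symm⟩

/-- A multiple of `a` kills `ℤ/a`. -/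
theorem nsmul_zmod_eq_zero {a b : ℕ} (h : a ∣ b) (x : ZMod a) : b • x = 0 := by
  rw [nsmul_eq_mul, (ZMod.natCast_eq_zero_iff b a).mpr h, zero_mul]

/-- The kernel of `m` on a product. -/
theorem nonempty_killedBy_prod (G H : Type*) [AddCommGroup G] [AddCommGroup H] (m : ℕ) :
    Nonempty (killedBy (G × H) m ≃+ killedBy G m × killedBy H m) :=
  ⟨{ toFun := fun x => (⟨x.1.1, congrArg Prod.fst (mem_killedBy.mp x.2)⟩,
        ⟨x.1.2, congrArg Prod.snd (mem_killedBy.mp x.2)⟩)
     invFun := fun x => ⟨(x.1.1, x.2.1), Prod.ext x.1.2 x.2.2⟩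
     left_inv := fun _ => rfl
     right_inv := fun _ => rfl
     map_add' := fun _ _ => rfl }⟩

/-- With known primary component, the kernel at every high power. -/
theorem primaryComponent_iff_killedBy {p b k : ℕ} [Fact p.Prime] {A : Type*} [AddCommGroup A]
    (hA : ∀ x : A, p ^ b • x = 0) (hk : b < k) :
    Nonempty (AddCommGroup.primaryComponent G p ≃+ A) ↔ Nonempty (killedBy G (p ^ k) ≃+ A) := by
  obtain ⟨j, rfl⟩ : ∃ j, k = b + j + 1 := ⟨k - b - 1, by omega⟩
  exact primaryComponent_iff fun x => by rw [pow_add, mul_nsmul, hA, nsmul_zero]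

/-- **The `n₂`-part**: `G[n₂²]` is `ℤ/n₁ × ℤ/n₂` exactly when all its primary parts at the prime
divisors of `n₂` are the corresponding ones. -/
theorem killedBy_sq_iff {n₁ n₂ : ℕ} (h : n₁ ∣ n₂) (hn : n₂ ≠ 0) :
    Nonempty (killedBy G (n₂ ^ 2) ≃+ ZMod n₁ × ZMod n₂) ↔
      ∀ (l : ℕ) (_ : Fact l.Prime), l ∈ n₂.primeFactors →
        Nonempty (AddCommGroup.primaryComponent G l ≃+
          ZMod (l ^ n₁.factorization l) × ZMod (l ^ n₂.factorization l)) := by
  have hn1 : n₁ ≠ 0 := fun e => hn (zero_dvd_iff.mp (e ▸ h))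
  haveI := NeZero.mk hn
  haveI := NeZero.mk hn1
  set m : ℕ → ℕ := fun l => l ^ (2 * n₂.factorization l)
  have hprod : n₂ ^ 2 = ∏ l ∈ n₂.primeFactors, m l := by
    conv_lhs => rw [← Nat.prod_factorization_pow_eq_self hn]
    rw [Finsupp.prod, Nat.support_factorization, ← Finset.prod_pow]
    exact Finset.prod_congr rfl fun l _ => by rw [← pow_mul, mul_comm]
  have hm : (n₂.primeFactors : Set ℕ).Pairwise (Function.onFun Nat.Coprime m) :=
      fun i hi j hj hij =>
    ((Nat.coprime_primes (Nat.prime_of_mem_primeFactors hi)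
      (Nat.prime_of_mem_primeFactors hj)).mpr hij).pow _ _
  have hA : Nonempty (killedBy (ZMod n₁ × ZMod n₂) (n₂ ^ 2) ≃+ ZMod n₁ × ZMod n₂) := by
    have key : ∀ x : ZMod n₁ × ZMod n₂, x ∈ killedBy (ZMod n₁ × ZMod n₂) (n₂ ^ 2) := fun x => by
      exact Prod.ext (nsmul_zmod_eq_zero (h.trans (dvd_pow_self _ two_ne_zero)) x.1)
        (nsmul_zmod_eq_zero (dvd_pow_self _ two_ne_zero) x.2)
    exact ⟨{ toFun := fun x => x.1, invFun := fun x => ⟨x, key x⟩, left_inv := fun _ => rfl,
             right_inv := fun _ => rfl, map_add' := fun _ _ => rfl }⟩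
  have hloc : ∀ l ∈ n₂.primeFactors, Nonempty (killedBy (ZMod n₁ × ZMod n₂) (m l) ≃+
      ZMod (l ^ n₁.factorization l) × ZMod (l ^ n₂.factorization l)) := fun l hl => by
    have hp := Nat.prime_of_mem_primeFactors hl
    have hle := (Nat.factorization_le_iff_dvd hn1 hn).mpr h l
    have hg : ∀ n : ℕ, n ≠ 0 → n.factorization l ≤ 2 * n₂.factorization l →
        n.gcd (m l) = l ^ n.factorization l := fun n hn0 hle' => by
      obtain ⟨i, -, hi⟩ := (Nat.dvd_prime_pow hp).mp (Nat.gcd_dvd_right n (m l))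
      have h1 : l ^ n.factorization l ∣ n.gcd (m l) :=
        Nat.dvd_gcd (Nat.ordProj_dvd n l) (pow_dvd_pow l hle')
      rw [hi] at h1 ⊢
      have h2 : i ≤ n.factorization l :=
        (hp.pow_dvd_iff_le_factorization hn0).mp (hi ▸ Nat.gcd_dvd_left n (m l))
      rw [le_antisymm h2 ((Nat.pow_dvd_pow_iff_le_right hp.one_lt).mp h1)]
    obtain ⟨e1⟩ := nonempty_killedBy_prod (ZMod n₁) (ZMod n₂) (m l)
    obtain ⟨e2⟩ := nonempty_killedBy_zmod n₁ (m l) _ (hg n₁ hn1 (by omega))
    obtain ⟨e3⟩ := nonempty_killedBy_zmod n₂ (m l) _ (hg n₂ hn (by omega))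
    exact ⟨e1.trans (e2.prodCongr e3)⟩
  obtain ⟨eA⟩ := hA
  rw [hprod] at eA ⊢
  calc Nonempty (killedBy G (∏ l ∈ n₂.primeFactors, m l) ≃+ ZMod n₁ × ZMod n₂)
      ↔ Nonempty (killedBy G (∏ l ∈ n₂.primeFactors, m l) ≃+
          killedBy (ZMod n₁ × ZMod n₂) (∏ l ∈ n₂.primeFactors, m l)) :=
        ⟨fun ⟨e⟩ => ⟨e.trans eA.symm⟩, fun ⟨e⟩ => ⟨e.trans eA⟩⟩
    _ ↔ _ := nonempty_killedBy_prod_iff _ _ hm
    _ ↔ _ := ⟨fun hh l hl' hl => by
        haveI := hl'
        have hpos : 0 < n₂.factorization l := hl'.out.factorization_pos_of_dvd hn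
          (Nat.dvd_of_mem_primeFactors hl)
        have hle := (Nat.factorization_le_iff_dvd hn1 hn).mpr h l
        obtain ⟨e⟩ := hh l hl
        obtain ⟨e'⟩ := hloc l hl
        exact (primaryComponent_iff_killedBy (fun x =>
          Prod.ext (nsmul_zmod_eq_zero (pow_dvd_pow l hle) x.1)
            (nsmul_zmod_eq_zero dvd_rfl x.2)) (by omega)).mpr ⟨e.trans e'⟩,
      fun hh l hl => by
        have hp := Nat.prime_of_mem_primeFactors hl
        haveI := Fact.mk hp
        have hpos : 0 < n₂.factorization l := hp.factorization_pos_of_dvd hn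
          (Nat.dvd_of_mem_primeFactors hl)
        have hle := (Nat.factorization_le_iff_dvd hn1 hn).mpr h l
        obtain ⟨e'⟩ := hloc l hl
        obtain ⟨e⟩ := (primaryComponent_iff_killedBy (k := 2 * n₂.factorization l) (fun x =>
          Prod.ext (nsmul_zmod_eq_zero (pow_dvd_pow l hle) x.1)
            (nsmul_zmod_eq_zero dvd_rfl x.2)) (by omega)).mp (hh l inferInstance hl)
        exact ⟨e.trans e'.symm⟩⟩

end FA.LPart

end
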