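import Fermat.Agent.LPart.Count

/-!
# The matrices `g ∈ GL₂(ℤ/pᵏ)` with `det (g - 1) = 0`

Sorted by the reduction of `g - 1` modulo `p`: over a residue of rank one the determinant is
equidistributed, over `0` it is `p²` times that of a matrix modulo `pᵏ⁻¹`.
-/

set_option autoImplicit false
set_option linter.unusedSectionVars false
set_option linter.style.haveILetI false

noncomputable section

open Matrix Finset FA.OrderDensity
open scoped Classical

namespace FA.LPart

variable {p : ℕ} [hp : Fact p.Prime]

local notation "R[" m "]" => ZMod (p ^ m)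
local notation "M[" m "]" => Matrix (Fin 2) (Fin 2) (ZMod (p ^ m))
local notation "M₁" => Matrix (Fin 2) (Fin 2) (ZMod p)

/-- The matrices modulo `pⁿ` of determinant zero. -/
def detZero (p n : ℕ) [Fact p.Prime] : Finset (Matrix (Fin 2) (Fin 2) (ZMod (p ^ n))) :=
  univ.filter fun A => A.det = 0

theorem det_map_pMul (j : ℕ) (B : M[j + 1]) :
    (B.map (pMul (j + 1))).det = pMul (j + 1) (pMul j (red j B.det)) := by
  obtain ⟨B, rfl⟩ : ∃ B' : M[j + 2], B'.map (red (j + 1)) = B := by
    choose f hf using fun a b => red_surjective (j + 1) (B a b)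
    exact ⟨Matrix.of f, Matrix.ext hf⟩
  rw [show (B.map (red (j + 1))).det = red (j + 1) B.det from (RingHom.map_det _ _).symm,
    pMul_red, ← map_natCast (red (j + 1)), ← map_mul, pMul_red, det_fin_two, det_fin_two]
  simp only [Matrix.map_apply, pMul_red]
  ring

/-- Over the residue `0`, for the determinant to vanish. -/
theorem card_detZero_map_pMul (j : ℕ) :
    (univ.filter fun B : M[j + 1] => (B.map (pMul (j + 1))).det = 0).card =
      p ^ 4 * (detZero p j).card := by
  have hfib : ∀ C : M[j], (univ.filter fun B : M[j + 1] => B.map (red j) = C).card = p ^ 4 := by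
    let f : M[j + 1] →+ M[j] := (red (p := p) j).toAddMonoidHom.mapMatrix
    have hf : Function.Surjective f := fun C => by
      choose g hg using fun a b => red_surjective j (C a b)
      exact ⟨Matrix.of g, Matrix.ext hg⟩
    have he : ∀ C : M[j], (univ.filter fun B : M[j + 1] => B.map (red j) = C).card =
        (univ.filter fun B : M[j + 1] => B.map (red j) = 0).card := fun C => by
      obtain ⟨B₀, rfl⟩ := hf C
      refine Finset.card_equiv (Equiv.addRight (-B₀)) fun B => ?_
      simp only [Finset.mem_filter, Finset.mem_univ, true_and]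
      show f B = f B₀ ↔ f (B + -B₀) = 0
      rw [map_add, map_neg, ← sub_eq_add_neg, sub_eq_zero]
    intro C
    have h := Finset.card_eq_sum_card_fiberwise (s := (univ : Finset M[j + 1]))
      (t := (univ : Finset M[j])) (f := fun B => B.map (red j)) fun _ _ => Finset.mem_univ _
    rw [Finset.sum_congr rfl fun D _ => he D, Finset.sum_const, Finset.card_univ, Finset.card_univ,
      card_M, card_M, smul_eq_mul, ← he C] at h
    refine Nat.eq_of_mul_eq_mul_left (pow_pos hp.out.pos (4 * j)) (h.symm.trans ?_)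
    rw [← pow_add, mul_add, mul_one]
  rw [Finset.card_eq_sum_card_fiberwise (f := fun B : M[j + 1] => B.map (red j))
    (t := detZero p j) fun B hB => ?_, Finset.sum_congr rfl (g := fun _ => p ^ 4) fun C hC => ?_,
    Finset.sum_const, smul_eq_mul, mul_comm]
  · rw [← hfib C, Finset.filter_filter]
    refine congrArg Finset.card (Finset.filter_congr fun B _ => ⟨fun h => h.2, fun h => ⟨?_, h⟩⟩)
    rw [det_map_pMul, show red j B.det = (B.map (red j)).det from RingHom.map_det _ _, h,
      show C.det = 0 from (Finset.mem_filter.mp hC).2, map_zero, map_zero]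
  · refine Finset.mem_filter.mpr ⟨Finset.mem_univ _, ?_⟩
    have h := (Finset.mem_filter.mp hB).2
    rw [det_map_pMul, map_eq_zero_iff _ (pMul_injective _),
      map_eq_zero_iff _ (pMul_injective _)] at h
    rw [← h]
    exact (RingHom.map_det _ _).symm

/-- **The matrices of determinant zero, sorted by residue**, `P` a condition on it. -/
theorem card_detZero_filter (m : ℕ) (P : M₁ → Prop) :
    ((detZero p (m + 1)).filter fun A => P (resMat m A)).card =
      (univ.filter fun Ā : M₁ => P Ā ∧ Ā ≠ 0 ∧ Ā.det = 0).card * p ^ (3 * m) +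
        if P 0 then (univ.filter fun B : M[m] => (B.map (pMul m)).det = 0).card else 0 := by
  rw [Finset.card_eq_sum_card_fiberwise (f := resMat m)
    (t := univ.filter fun Ā : M₁ => P Ā ∧ Ā.det = 0) fun A hA => ?_]
  swap
  · obtain ⟨h, hP⟩ := Finset.mem_filter.mp hA
    refine Finset.mem_filter.mpr ⟨Finset.mem_univ _, hP, ?_⟩
    rw [resMat, ← RingHom.map_det, (Finset.mem_filter.mp h).2, map_zero]
  have key : ∀ Ā : M₁, P Ā → Ā.det = 0 →
      ((((detZero p (m + 1)).filter fun A => P (resMat m A))).filter fun A => resMat m A = Ā).card =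
        if Ā = 0 then (univ.filter fun B : M[m] => (B.map (pMul m)).det = 0).card
        else p ^ (3 * m) := by
    intro Ā hP hd
    have e : (((detZero p (m + 1)).filter fun A => P (resMat m A))).filter
        (fun A => resMat m A = Ā) =
        (univ.filter fun A => resMat m A = Ā).filter fun A => A.det = 0 := by
      ext A
      simp only [detZero, Finset.mem_filter, Finset.mem_univ, true_and]
      exact ⟨fun h => ⟨h.2, h.1.1⟩, fun h => ⟨⟨h.2, h.1 ▸ hP⟩, h.1⟩⟩
    rw [e, Finset.card_filter]
    split_ifs with h0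
    · subst h0
      rw [sum_fibre (L := 0) (map_zero _), Finset.card_filter]
      exact Finset.sum_congr rfl fun B _ => by rw [zero_add]
    · rw [sum_det_of_rank_one m h0 hd fun z => if z = 0 then 1 else 0,
        Finset.sum_eq_single (0 : R[m]) (fun z _ hz => if_neg fun h => hz
          ((map_eq_zero_iff _ (pMul_injective m)).mp h)) (fun h => absurd (Finset.mem_univ _) h),
        if_pos (map_zero _), mul_one]
  rw [Finset.sum_congr rfl fun Ā hĀ =>
    key Ā (Finset.mem_filter.mp hĀ).2.1 (Finset.mem_filter.mp hĀ).2.2, Finset.sum_ite,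
    Finset.sum_const, Finset.sum_const, smul_eq_mul, smul_eq_mul, add_comm,
    Finset.filter_filter, Finset.filter_filter]
  congr 1
  · congr 2
    exact Finset.filter_congr fun A _ => ⟨fun h => ⟨h.1.1, h.2, h.1.2⟩,
      fun h => ⟨⟨h.1, h.2.2⟩, h.2.1⟩⟩
  · split_ifs with h
    · rw [show (univ.filter fun Ā : M₁ => (P Ā ∧ Ā.det = 0) ∧ Ā = 0) = {0} by
        ext A; simp only [Finset.mem_filter, Finset.mem_univ, true_and, Finset.mem_singleton]
        exact ⟨fun h => h.2, fun e => ⟨⟨e ▸ h, by rw [e, det_zero]⟩, e⟩⟩,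
        Finset.card_singleton, one_mul]
    · rw [show (univ.filter fun Ā : M₁ => (P Ā ∧ Ā.det = 0) ∧ Ā = 0) = ∅ by
        ext A; simp only [Finset.mem_filter, Finset.mem_univ, true_and, Finset.notMem_empty,
          iff_false]
        rintro ⟨⟨hP, -⟩, rfl⟩
        exact h hP, Finset.card_empty, zero_mul]

/-- The singular nonzero matrices modulo `p`. -/
theorem card_rank_one :
    (univ.filter fun Ā : M₁ => Ā ≠ 0 ∧ Ā.det = 0).card + p + 1 = p ^ 3 + p ^ 2 := by
  have hgl : (univ.filter fun A : M₁ => ¬ A.det = 0).card = Nat.card (GL (Fin 2) (ZMod p)) := by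
    rw [Nat.card_eq_fintype_card, ← Finset.card_univ]
    refine (Finset.card_bij (fun g _ => g.val) (fun g _ => ?_) (fun a _ b _ e => Units.ext e)
      fun A hA => ?_).symm
    · exact Finset.mem_filter.mpr ⟨Finset.mem_univ _,
        ((Matrix.isUnit_iff_isUnit_det g.val).mp g.isUnit).ne_zero⟩
    · exact ⟨Matrix.GeneralLinearGroup.mkOfDetNeZero A (Finset.mem_filter.mp hA).2,
        Finset.mem_univ _, rfl⟩
  have h := Finset.card_filter_add_card_filter_not (s := (univ : Finset M₁)) (fun A => A.det = 0)
  rw [hgl, FA.TraceDist.card_gl2, ZMod.card, Finset.card_univ,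
    show Fintype.card M₁ = p ^ 4 by
      show Fintype.card (Fin 2 → Fin 2 → ZMod p) = _
      rw [Fintype.card_fun, Fintype.card_fun, ZMod.card, Fintype.card_fin, ← pow_mul]] at h
  have e : (univ.filter fun A : M₁ => A.det = 0) =
      insert 0 (univ.filter fun Ā : M₁ => Ā ≠ 0 ∧ Ā.det = 0) := by
    ext A
    simp only [Finset.mem_filter, Finset.mem_univ, true_and, Finset.mem_insert]
    exact ⟨fun hd => (eq_or_ne A 0).imp_right fun hne => ⟨hne, hd⟩,
      fun h => h.elim (fun e => by rw [e, det_zero]) fun h => h.2⟩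
  rw [e, Finset.card_insert_of_notMem (by simp)] at h
  obtain ⟨q, rfl⟩ : ∃ q, p = q + 1 := ⟨p - 1, (Nat.succ_pred_eq_of_pos hp.out.pos).symm⟩
  rw [show (q + 1) ^ 2 - 1 = q * (q + 2) by
      rw [show (q + 1) ^ 2 = q * (q + 2) + 1 by ring, Nat.add_sub_cancel],
    show (q + 1) ^ 2 - (q + 1) = (q + 1) * q by
      rw [show (q + 1) ^ 2 = (q + 1) * q + (q + 1) by ring, Nat.add_sub_cancel]] at h
  linarith

theorem card_detZero_zero : (detZero p 0).card = 1 := by
  have : Subsingleton R[0] := by rw [pow_zero]; infer_instance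
  rw [detZero, Finset.filter_true_of_mem fun A _ => Subsingleton.elim _ _, Finset.card_univ, card_M,
    mul_zero, pow_zero]

/-- **The number of matrices of determinant zero.** -/
theorem card_detZero : ∀ n : ℕ,
    p * (detZero p n).card + p ^ (2 * n) = (p + 1) * p ^ (3 * n) := by
  have hstep : ∀ m, (detZero p (m + 1)).card =
      (univ.filter fun Ā : M₁ => Ā ≠ 0 ∧ Ā.det = 0).card * p ^ (3 * m) +
        (univ.filter fun B : M[m] => (B.map (pMul m)).det = 0).card := fun m => by
    have h := card_detZero_filter (p := p) m fun _ => True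
    simpa using h
  intro n
  induction n using Nat.strong_induction_on with
  | _ n ih =>
    have hR := card_rank_one (p := p)
    rcases n with _ | _ | j
    · rw [card_detZero_zero]; ring
    · rw [hstep, show (univ.filter fun B : M[0] => (B.map (pMul 0)).det = 0).card = 1 by
        have : Subsingleton R[0] := by rw [pow_zero]; infer_instance
        rw [Finset.filter_true_of_mem fun B _ => by
            rw [show B = 0 from Subsingleton.elim _ _, Matrix.map_zero _ (map_zero _), det_zero],
          Finset.card_univ, card_M, mul_zero, pow_zero]]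
      simp only [Nat.zero_add, mul_zero, pow_zero, mul_one]
      nlinarith [hR]
    · rw [hstep, card_detZero_map_pMul]
      have hj := ih j (by omega)
      have e : p * ((univ.filter fun Ā : M₁ => Ā ≠ 0 ∧ Ā.det = 0).card * p ^ (3 * (j + 1)) +
          p ^ 4 * (detZero p j).card) + p ^ (2 * (j + 1 + 1)) +
          (p + 1) * (p * p ^ (3 * (j + 1))) =
          ((univ.filter fun Ā : M₁ => Ā ≠ 0 ∧ Ā.det = 0).card + p + 1) * (p * p ^ (3 * (j + 1))) +
            p ^ 4 * (p * (detZero p j).card + p ^ (2 * j)) := by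
        ring
      rw [hR, hj] at e
      have e2 : (p ^ 3 + p ^ 2) * (p * p ^ (3 * (j + 1))) + p ^ 4 * ((p + 1) * p ^ (3 * j)) =
          (p + 1) * p ^ (3 * (j + 1 + 1)) + (p + 1) * (p * p ^ (3 * (j + 1))) := by
        ring
      linarith

/-- The share of the `g ∈ GL₂(ℤ/pᵐ⁺¹)` with `trace g = det g + 1`. -/
theorem card_trace_eq_det_add_one_div (m : ℕ) :
    (Nat.card {g : GL (Fin 2) R[m + 1] // g.val.trace = g.val.det + 1} : ℝ) /
        Nat.card (GL (Fin 2) R[m + 1]) =
      1 / (((p : ℝ) - 1) * (p : ℝ) ^ m) -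
        1 / (((p : ℝ) - 1) * ((p : ℝ) ^ 2 - 1) * (p : ℝ) ^ (2 * m)) := by
  have e : Nat.card {g : GL (Fin 2) R[m + 1] // g.val.trace = g.val.det + 1} =
      ((detZero p (m + 1)).filter fun A => (1 + resMat m A).det ≠ 0).card := by
    rw [Nat.card_eq_fintype_card, Fintype.card_subtype]
    have hd : ∀ g : M[m + 1], g.trace = g.det + 1 ↔ (g - 1).det = 0 := fun g => by
      rw [show (g - 1).det = g.det + 1 - g.trace by simp [det_fin_two, trace_fin_two]; ring,
        sub_eq_zero, eq_comm]
    refine Finset.card_bij (fun g _ => g.val - 1) (fun g hg => ?_)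
      (fun a _ b _ e => Units.ext (sub_left_injective e)) fun A hA => ?_
    · refine Finset.mem_filter.mpr ⟨Finset.mem_filter.mpr
        ⟨Finset.mem_univ _, (hd _).mp (Finset.mem_filter.mp hg).2⟩, ?_⟩
      rw [map_sub, map_one, add_sub_cancel, resMat, ← RingHom.map_det]
      exact isUnit_iff_res.mp ((Matrix.isUnit_iff_isUnit_det g.val).mp g.isUnit)
    · obtain ⟨h0, h1⟩ := Finset.mem_filter.mp hA
      have hu : IsUnit (1 + A) := by
        rw [Matrix.isUnit_iff_isUnit_det, isUnit_iff_res, RingHom.map_det]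
        show (resMat m (1 + A)).det ≠ 0
        rwa [map_add, map_one]
      refine ⟨hu.unit, Finset.mem_filter.mpr ⟨Finset.mem_univ _, (hd _).mpr ?_⟩, ?_⟩
      · rw [IsUnit.unit_spec, add_sub_cancel_left]
        exact (Finset.mem_filter.mp h0).2
      · rw [IsUnit.unit_spec, add_sub_cancel_left]
  have hfix : (univ.filter fun Ā : M₁ => (1 + Ā).det ≠ 0 ∧ Ā ≠ 0 ∧ Ā.det = 0).card + 2 * p + 1 =
      p ^ 3 := by
    have hc := FA.TraceDist.card_fixing (k := ZMod p)
    rw [ZMod.card, Nat.card_eq_fintype_card, Fintype.card_subtype,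
      ← Finset.card_erase_add_one (s := univ.filter fun g : GL (Fin 2) (ZMod p) =>
        g.val.trace = g.val.det + 1) (a := 1) (by
          simp [trace_fin_two, det_fin_two])] at hc
    rw [← hc, add_right_comm _ 1]
    congr 2
    have hd : ∀ g : M₁, g.trace = g.det + 1 ↔ (g - 1).det = 0 := fun g => by
      rw [show (g - 1).det = g.det + 1 - g.trace by simp [det_fin_two, trace_fin_two]; ring,
        sub_eq_zero, eq_comm]
    refine Finset.card_bij (fun A hA => Matrix.GeneralLinearGroup.mkOfDetNeZero (1 + A)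
      (Finset.mem_filter.mp hA).2.1) (fun A hA => ?_)
      (fun A _ B _ e => add_left_cancel (congrArg Units.val e :)) fun g hg => ?_
    · obtain ⟨-, hne, hd0⟩ := (Finset.mem_filter.mp hA).2
      refine Finset.mem_erase.mpr ⟨fun e => hne ?_, Finset.mem_filter.mpr ⟨Finset.mem_univ _,
        (hd _).mpr ?_⟩⟩
      · have e' := congrArg Units.val e
        rw [Units.val_one] at e'
        exact add_eq_left.mp e'
      · show ((1 + A) - 1 : M₁).det = 0
        rwa [add_sub_cancel_left]
    · obtain ⟨hne, hg'⟩ := Finset.mem_erase.mp hg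
      refine ⟨g.val - 1, Finset.mem_filter.mpr ⟨Finset.mem_univ _, ?_, fun h => hne (Units.ext
        (sub_eq_zero.mp h)), (hd _).mp (Finset.mem_filter.mp hg').2⟩,
        Units.ext (add_sub_cancel _ _)⟩
      rw [add_sub_cancel]
      exact ((Matrix.isUnit_iff_isUnit_det g.val).mp g.isUnit).ne_zero
  have hsplit := card_detZero_filter (p := p) m fun Ā => (1 + Ā).det ≠ 0
  beta_reduce at hsplit
  rw [if_pos (by simp)] at hsplit
  have hs : ((detZero p (m + 1)).filter fun A => (1 + resMat m A).det ≠ 0).card =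
      (univ.filter fun Ā : M₁ => (1 + Ā).det ≠ 0 ∧ Ā ≠ 0 ∧ Ā.det = 0).card * p ^ (3 * m) +
        (univ.filter fun B : M[m] => (B.map (pMul m)).det = 0).card := by convert hsplit
  rw [e, hs, card_gl2_succ]
  have hfix' : ((univ.filter fun Ā : M₁ => (1 + Ā).det ≠ 0 ∧ Ā ≠ 0 ∧ Ā.det = 0).card : ℝ) =
      (p : ℝ) ^ 3 - 2 * p - 1 := by
    rw [eq_sub_iff_add_eq, eq_sub_iff_add_eq, add_right_comm]
    exact_mod_cast hfix
  have h2 : (2 : ℝ) ≤ p := by exact_mod_cast hp.out.two_le
  have a1 : (p : ℝ) ^ 2 - 1 ≠ 0 := by nlinarith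
  have a2 : (p : ℝ) ^ 2 - p ≠ 0 := by nlinarith
  have a3 : (p : ℝ) - 1 ≠ 0 := by linarith
  have a4 : (p : ℝ) ≠ 0 := by linarith
  push_cast
  rw [hfix']
  rcases m with _ | j
  · rw [show (univ.filter fun B : M[0] => (B.map (pMul 0)).det = 0).card = 1 by
      have : Subsingleton R[0] := by rw [pow_zero]; infer_instance
      rw [Finset.filter_true_of_mem fun B _ => by
          rw [show B = 0 from Subsingleton.elim _ _, Matrix.map_zero _ (map_zero _), det_zero],
        Finset.card_univ, card_M, mul_zero, pow_zero]]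
    field_simp
    push_cast
    ring
  · rw [card_detZero_map_pMul]
    have hz : ((detZero p j).card : ℝ) =
        (((p : ℝ) + 1) * (p : ℝ) ^ (3 * j) - (p : ℝ) ^ (2 * j)) / p := by
      rw [eq_div_iff a4, eq_sub_iff_add_eq, mul_comm]
      exact_mod_cast card_detZero j
    push_cast
    rw [hz, show 3 * (j + 1) = 3 * j + 3 by ring, show 4 * (j + 1) = 4 * j + 4 by ring,
      show 2 * (j + 1) = 2 * j + 2 by ring, pow_add _ (3 * j), pow_add _ (4 * j), pow_add _ (2 * j),
      show 4 * j = 3 * j + j by ring, show 2 * j = j + j by ring, show 3 * j = j + j + j by ring]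
    simp only [pow_add, pow_one]
    field_simp
    ring

end FA.LPart

end
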