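import Fermat.Agent.OrderDensity.Count
import Fermat.Agent.Bashmakov.Family

/-!
# The kernel of a matrix on `(ℤ/pⁿ)²`

For `X = pᵃ Y` modulo `p^(a+c+1)` with `Y` nonzero modulo `p` and determinant `p^c` times a unit the
kernel is `ℤ/pᵃ × ℤ/p^(a+c)`, and these are all the matrices with that kernel.
-/

set_option autoImplicit false
set_option linter.unusedSectionVars false
set_option linter.style.haveILetI false

noncomputable section

open Matrix FA.OrderDensity

namespace FA.LPart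

variable {p : ℕ} [hp : Fact p.Prime]

local notation "R[" m "]" => ZMod (p ^ m)
local notation "M[" m "]" => Matrix (Fin 2) (Fin 2) (ZMod (p ^ m))

/-- Multiplication by `pᵃ` from `ℤ/pᵐ` to `ℤ/pᵃ⁺ᵐ`. -/
def mulPow (a m : ℕ) : R[m] →+ R[a + m] :=
  ZMod.lift (p ^ m) ⟨(AddMonoidHom.mulLeft ((p : R[a + m]) ^ a)).comp (Int.castAddHom _), by
    show (p : R[a + m]) ^ a * (((p ^ m : ℕ) : ℤ) : R[a + m]) = 0
    rw [Int.cast_natCast, ← Nat.cast_pow, ← Nat.cast_mul, ← pow_add, ZMod.natCast_self]⟩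

/-- Reduction from `ℤ/pᵃ⁺ᵐ` to `ℤ/pᵐ`. -/
def redTo (a m : ℕ) : R[a + m] →+* R[m] := ZMod.castHom (pow_dvd_pow p (Nat.le_add_left m a)) _

theorem redTo_surjective (a m : ℕ) : Function.Surjective (redTo (p := p) a m) :=
  ZMod.castHom_surjective _

theorem mulPow_redTo (a m : ℕ) (x : R[a + m]) :
    mulPow a m (redTo a m x) = (p : R[a + m]) ^ a * x := by
  obtain ⟨z, rfl⟩ := ZMod.intCast_surjective x
  rw [map_intCast]
  exact ZMod.lift_coe _ _ _

theorem mulPow_injective (a m : ℕ) : Function.Injective (mulPow (p := p) a m) := by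
  refine (injective_iff_map_eq_zero _).mpr fun x hx => ?_
  obtain ⟨y, rfl⟩ := redTo_surjective a m x
  rw [mulPow_redTo] at hx
  obtain ⟨b, rfl⟩ := FA.Bashmakov.exists_eq_pow_mul hp.out (rfl : a + m = a + m) hx
  rw [map_mul, map_pow, map_natCast, ← Nat.cast_pow, ZMod.natCast_self, zero_mul]

theorem mulPow_mul (a m : ℕ) (z : R[m]) (x : R[a + m]) :
    mulPow a m z * x = mulPow a m (z * redTo a m x) := by
  obtain ⟨z, rfl⟩ := redTo_surjective a m z
  rw [← map_mul, mulPow_redTo, mulPow_redTo, mul_assoc]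

theorem redTo_eq_zero_iff {a m : ℕ} {x : R[a + m]} :
    redTo a m x = 0 ↔ (p : R[a + m]) ^ a * x = 0 := by
  rw [← mulPow_redTo, map_eq_zero_iff _ (mulPow_injective a m)]

/-- The elements of `ℤ/pⁿ` killed by `pᵉ`. -/
def killed (n e : ℕ) : AddSubgroup R[n] :=
  (AddMonoidHom.mulLeft ((p : R[n]) ^ e)).ker

theorem mem_killed {n e : ℕ} {x : R[n]} : x ∈ killed n e ↔ (p : R[n]) ^ e * x = 0 := Iff.rfl

/-- They form `ℤ/pᵉ`. -/
theorem nonempty_killed_equiv {n e : ℕ} (h : e ≤ n) :
    Nonempty (killed (p := p) n e ≃+ R[e]) := by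
  obtain ⟨f, rfl⟩ : ∃ f, n = f + e := ⟨n - e, by omega⟩
  have hmem : ∀ z, mulPow f e z ∈ killed (p := p) (f + e) e := fun z => by
    obtain ⟨x, rfl⟩ := redTo_surjective f e z
    rw [mem_killed, mulPow_redTo, ← mul_assoc, ← pow_add, add_comm e, ← Nat.cast_pow,
      ZMod.natCast_self, zero_mul]
  let φ : R[e] →+ killed (p := p) (f + e) e := (mulPow f e).codRestrict _ hmem
  refine ⟨(AddEquiv.ofBijective φ ⟨fun a b h =>
    mulPow_injective f e (congrArg (fun z : killed (p := p) (f + e) e => z.1) h),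
    fun x => ?_⟩).symm⟩
  obtain ⟨b, hb⟩ := FA.Bashmakov.exists_eq_pow_mul hp.out (add_comm e f)
    (mem_killed.mp x.2)
  exact ⟨redTo f e b, Subtype.ext ((mulPow_redTo f e b).trans hb.symm)⟩

/-- The kernel of a matrix. -/
def kerMat {n : ℕ} (X : M[n]) : AddSubgroup (Fin 2 → R[n]) := X.mulVecLin.toAddMonoidHom.ker

theorem mem_kerMat {n : ℕ} {X : M[n]} {v : Fin 2 → R[n]} : v ∈ kerMat X ↔ X *ᵥ v = 0 := Iff.rfl

theorem map_mulPow_mulVec {a m : ℕ} (Y : M[m]) (v : Fin 2 → R[a + m]) :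
    Y.map (mulPow a m) *ᵥ v = fun i => mulPow a m ((Y *ᵥ fun j => redTo a m (v j)) i) := by
  funext i
  simp [mulVec, dotProduct, mulPow_mul]

/-- Solving with a unit entry. -/
theorem mulVec_eq_zero_iff {S : Type*} [CommRing S] (Y : Matrix (Fin 2) (Fin 2) S) {i j : Fin 2}
    (h : IsUnit (Y i j)) (w : Fin 2 → S) :
    Y *ᵥ w = 0 ↔ (Y i j * w j + Y i (1 - j) * w (1 - j) = 0 ∧ Y.det * w (1 - j) = 0) := by
  constructor
  · intro hw
    refine ⟨?_, ?_⟩
    · have := congrFun hw i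
      fin_cases j <;> simp [mulVec, dotProduct, Fin.sum_univ_two] at this ⊢ <;>
        linear_combination this
    · have e := congrArg (Y.adjugate *ᵥ ·) hw
      simp only [mulVec_mulVec, adjugate_mul, mulVec_zero, smul_mulVec, one_mulVec] at e
      exact congrFun e (1 - j)
  · rintro ⟨h1, h2⟩
    have hi : (Y *ᵥ w) i = 0 := by
      fin_cases j <;> simp [mulVec, dotProduct, Fin.sum_univ_two] at h1 ⊢ <;>
        linear_combination h1
    have hk : Y i j * (Y *ᵥ w) (1 - i) = 0 := by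
      fin_cases i <;> fin_cases j <;>
        simp [mulVec, dotProduct, Fin.sum_univ_two, det_fin_two] at h1 h2 ⊢
      · linear_combination h2 + Y 1 0 * h1
      · linear_combination -h2 + Y 1 1 * h1
      · linear_combination -h2 + Y 0 0 * h1
      · linear_combination h2 + Y 0 1 * h1
    have hk' : (Y *ᵥ w) (1 - i) = 0 := h.mul_left_cancel (hk.trans (mul_zero _).symm)
    funext l
    rcases eq_or_ne l i with rfl | hl
    · exact hi
    · rwa [show l = 1 - i by omega]

/-- A lift of a unit is one. -/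
theorem isUnit_of_redTo {a c : ℕ} {x : R[a + (c + 1)]} (h : IsUnit (redTo a (c + 1) x)) :
    IsUnit x := by
  refine (FA.Bashmakov.isUnit_or_eq_prime_mul hp.out x).resolve_right fun ⟨b, hb⟩ => ?_
  rw [hb, map_mul, map_natCast] at h
  refine isUnit_iff_res.mp h ?_
  rw [map_mul, map_natCast, ZMod.natCast_self, zero_mul]

/-- **The kernel**, split. -/
theorem nonempty_ker_equiv {a c : ℕ} (Y : M[c + 1]) {i j : Fin 2} (h : IsUnit (Y i j)) :
    ∃ S : AddSubgroup R[a + (c + 1)], (∀ x, x ∈ S ↔ Y.det * redTo a (c + 1) x = 0) ∧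
      Nonempty (kerMat (Y.map (mulPow a (c + 1))) ≃+ killed (p := p) (a + (c + 1)) a × S) := by
  let S : AddSubgroup R[a + (c + 1)] :=
    ((AddMonoidHom.mulLeft Y.det).comp (redTo a (c + 1)).toAddMonoidHom).ker
  refine ⟨S, fun x => Iff.rfl, ?_⟩
  choose L hL using fun z : R[c + 1] => redTo_surjective a (c + 1) z
  have hu : IsUnit (L (Y i j)) := isUnit_of_redTo (by rw [hL]; exact h)
  let s : (Fin 2 → R[a + (c + 1)]) → R[a + (c + 1)] := fun v =>
    L (Y i j) * v j + L (Y i (1 - j)) * v (1 - j)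
  have hmem : ∀ v, v ∈ kerMat (Y.map (mulPow a (c + 1))) ↔
      s v ∈ killed (p := p) (a + (c + 1)) a ∧ v (1 - j) ∈ S := fun v => by
    rw [mem_kerMat, map_mulPow_mulVec, mem_killed, ← redTo_eq_zero_iff, map_add, map_mul, map_mul,
      hL, hL, show v (1 - j) ∈ S ↔ Y.det * redTo a (c + 1) (v (1 - j)) = 0 from Iff.rfl,
      ← mulVec_eq_zero_iff Y h (fun l => redTo a (c + 1) (v l)), funext_iff, funext_iff]
    exact forall_congr' fun l => map_eq_zero_iff _ (mulPow_injective a (c + 1))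
  let Φ : kerMat (Y.map (mulPow a (c + 1))) →+ killed (p := p) (a + (c + 1)) a × S :=
    AddMonoidHom.mk' (fun v => (⟨s v.1, ((hmem v.1).mp v.2).1⟩,
        ⟨v.1 (1 - j), ((hmem v.1).mp v.2).2⟩))
      fun v w => Prod.ext (Subtype.ext (by
        show L (Y i j) * (v.1 j + w.1 j) + L (Y i (1 - j)) * (v.1 (1 - j) + w.1 (1 - j)) = _
        simp only [s, Prod.fst_add, AddSubgroup.coe_add]
        ring)) rfl
  refine ⟨AddEquiv.ofBijective Φ ⟨fun v w e => ?_, fun z => ?_⟩⟩
  · have e1 : s v.1 = s w.1 := congrArg (fun z => (z.1 : R[a + (c + 1)])) e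
    have e2 : v.1 (1 - j) = w.1 (1 - j) := congrArg (fun z => (z.2 : R[a + (c + 1)])) e
    refine Subtype.ext (funext fun l => ?_)
    rcases eq_or_ne l j with rfl | hl
    · simp only [s, e2, add_left_inj] at e1
      exact hu.mul_left_cancel e1
    · rwa [show l = 1 - j by omega]
  · set v : Fin 2 → R[a + (c + 1)] := fun l =>
      if l = j then ↑hu.unit⁻¹ * (z.1.1 - L (Y i (1 - j)) * z.2.1) else z.2.1
    have hk : v (1 - j) = z.2.1 := if_neg (by omega)
    have hs : s v = z.1.1 := by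
      simp only [s, hk]
      simp only [v, if_pos rfl]
      rw [← mul_assoc, hu.mul_val_inv, one_mul, sub_add_cancel]
    exact ⟨⟨v, (hmem v).mpr ⟨hs ▸ z.1.2, hk ▸ z.2.2⟩⟩, Prod.ext (Subtype.ext hs) (Subtype.ext hk)⟩

/-- The matrices `pᵃ Y` with `Y` nonzero modulo `p` and `det Y` exactly divisible by `pᶜ`. -/
def Shape (a c : ℕ) (X : M[a + (c + 1)]) : Prop :=
  ∃ Y : M[c + 1], X = Y.map (mulPow a (c + 1)) ∧ resMat c Y ≠ 0 ∧
    (p : R[c + 1]) * Y.det = 0 ∧ Y.det ≠ 0

/-- The kernel of such a matrix. -/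
theorem shape_ker {a c : ℕ} {X : M[a + (c + 1)]} (h : Shape a c X) :
    Nonempty (kerMat X ≃+ R[a] × R[a + c]) := by
  obtain ⟨Y, rfl, hY, hd, hd0⟩ := h
  obtain ⟨i, j, hij⟩ : ∃ i j, IsUnit (Y i j) := by
    by_contra hc
    push Not at hc
    exact hY (Matrix.ext fun i j => not_not.mp fun hne => hc i j (isUnit_iff_res.mpr hne))
  obtain ⟨S, hS, ⟨e⟩⟩ := nonempty_ker_equiv (a := a) Y hij
  obtain ⟨z, hz⟩ := FA.Bashmakov.exists_eq_pow_mul hp.out (add_comm 1 c : 1 + c = c + 1)
    (show (p : R[c + 1]) ^ 1 * Y.det = 0 by rw [pow_one, hd])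
  have hzu : IsUnit z := by
    refine (FA.Bashmakov.isUnit_or_eq_prime_mul hp.out z).resolve_right fun ⟨b, hb⟩ => hd0 ?_
    rw [hz, hb, ← mul_assoc, ← pow_succ, ← Nat.cast_pow, ZMod.natCast_self, zero_mul]
  have hS' : S = killed (p := p) (a + (c + 1)) (a + c) := by
    ext x
    rw [hS, mem_killed, pow_add (p : R[a + (c + 1)]), mul_assoc, ← redTo_eq_zero_iff, map_mul,
      map_pow, map_natCast,
      hz, mul_comm ((p : R[c + 1]) ^ c) z, mul_assoc, hzu.mul_right_eq_zero]
  subst hS'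
  obtain ⟨e1⟩ := nonempty_killed_equiv (p := p) (n := a + (c + 1)) (e := a) (by omega)
  obtain ⟨e2⟩ := nonempty_killed_equiv (p := p) (n := a + (c + 1)) (e := a + c) (by omega)
  exact ⟨e.trans (e1.prodCongr e2)⟩

/-- The elements of `ℤ/pᵉ` killed by `pᶠ` number at most `pᶠ`. -/
theorem card_nsmul_eq_zero_le (e f : ℕ) : Nat.card {x : R[e] // p ^ f • x = 0} ≤ p ^ f := by
  rw [Nat.card_eq_fintype_card, Fintype.card_subtype]
  exact IsAddCyclic.card_nsmul_eq_zero_le (pow_pos hp.out.pos f)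

/-- **All the matrices with that kernel.** -/
theorem shape_of_ker {a c : ℕ} {X : M[a + (c + 1)]} (e : kerMat X ≃+ R[a] × R[a + c]) :
    Shape a c X := by
  have hpn : ((p : R[a + (c + 1)]) ^ (a + (c + 1))) = 0 := by rw [← Nat.cast_pow, ZMod.natCast_self]
  have hexp : ∀ v : Fin 2 → R[a + (c + 1)], X *ᵥ v = 0 → p ^ (a + c) • v = 0 := fun v hv => by
    have h1 : p ^ (a + c) • (⟨v, mem_kerMat.mpr hv⟩ : kerMat X) = 0 := by
      refine e.injective ((map_nsmul e _ _).trans ((Prod.ext ?_ ?_).trans (map_zero e).symm))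
      · rw [Prod.smul_fst, nsmul_eq_mul, Nat.cast_pow, pow_add, ← Nat.cast_pow, ZMod.natCast_self,
          zero_mul, zero_mul]; rfl
      · rw [Prod.smul_snd, nsmul_eq_mul, ZMod.natCast_self, zero_mul]; rfl
    exact congrArg Subtype.val h1
  -- points killed by `p ^ f`
  let K : ℕ → Type := fun f => {v : kerMat X // p ^ f • v = 0}
  have hK : ∀ f, Nat.card (K f) = Nat.card {x : R[a] // p ^ f • x = 0} *
      Nat.card {x : R[a + c] // p ^ f • x = 0} := fun f => by
    rw [← Nat.card_prod]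
    refine Nat.card_congr ((e.toEquiv.subtypeEquiv (q := fun z : R[a] × R[a + c] => p ^ f • z = 0)
      fun v => ?_).trans
      { toFun := fun z => (⟨z.1.1, congrArg Prod.fst z.2⟩, ⟨z.1.2, congrArg Prod.snd z.2⟩)
        invFun := fun z => ⟨(z.1.1, z.2.1), Prod.ext z.1.2 z.2.2⟩
        left_inv := fun _ => rfl
        right_inv := fun _ => rfl })
    show p ^ f • v = 0 ↔ p ^ f • e v = 0
    rw [← map_nsmul, map_eq_zero_iff _ e.injective]
  have hfull : ∀ v : Fin 2 → R[a + (c + 1)], (∀ l, (p : R[a + (c + 1)]) ^ a * v l = 0) →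
      X *ᵥ v = 0 := by
    obtain ⟨ek⟩ := nonempty_killed_equiv (p := p) (n := a + (c + 1)) (e := a) (by omega)
    let T : Type := Fin 2 → killed (p := p) (a + (c + 1)) a
    have hT : Nat.card T = p ^ a * p ^ a := by
      rw [Nat.card_fun, Nat.card_fin, Nat.card_congr ek.toEquiv, Nat.card_zmod, sq]
    have hKa : Nat.card (K a) = p ^ a * p ^ a := by
      rw [hK, Nat.card_congr (Equiv.subtypeUnivEquiv fun x : R[a] => by
        rw [nsmul_eq_mul, ZMod.natCast_self, zero_mul]), Nat.card_zmod]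
      obtain ⟨g⟩ := nonempty_killed_equiv (p := p) (n := a + c) (e := a) (by omega)
      refine congrArg (p ^ a * ·) ((Nat.card_congr (Equiv.subtypeEquivRight fun x : R[a + c] => ?_)
        ).trans ((Nat.card_congr g.toEquiv).trans (Nat.card_zmod _)))
      rw [mem_killed, nsmul_eq_mul, Nat.cast_pow]
    let ι : K a → T := fun v l => ⟨v.1.1 l, by
      have := congrFun (congrArg Subtype.val v.2) l
      rw [mem_killed, ← Nat.cast_pow, ← nsmul_eq_mul]
      exact this⟩
    have hι : Function.Injective ι := fun v w h =>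
      Subtype.ext (Subtype.ext (funext fun l => congrArg Subtype.val (congrFun h l)))
    intro v hv
    obtain ⟨w, hw⟩ := ((Nat.bijective_iff_injective_and_card ι).mpr
      ⟨hι, hKa.trans hT.symm⟩).2 fun l => ⟨v l, hv l⟩
    have : w.1.1 = v := funext fun l => congrArg Subtype.val (congrFun hw l)
    rw [← this]
    exact mem_kerMat.mp w.1.2
  have hentry : ∀ i l, (p : R[a + (c + 1)]) ^ (c + 1) * X i l = 0 := fun i l => by
    have := congrFun (hfull (Pi.single l ((p : R[a + (c + 1)]) ^ (c + 1))) fun k => by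
      rcases eq_or_ne k l with rfl | hk
      · rw [Pi.single_eq_same, ← pow_add, hpn]
      · rw [Pi.single_eq_of_ne hk, mul_zero]) i
    simpa [mulVec, dotProduct, Pi.single_apply, mul_comm] using this
  choose B hB using fun i l => FA.Bashmakov.exists_eq_pow_mul hp.out
    (show c + 1 + a = a + (c + 1) by omega) (hentry i l)
  set Y : M[c + 1] := Matrix.of fun i l => redTo a (c + 1) (B i l) with hYdef
  have hXY : X = Y.map (mulPow a (c + 1)) := Matrix.ext fun i l =>
    (hB i l).trans (mulPow_redTo a (c + 1) _).symm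
  -- `Y` does not vanish modulo `p`
  have hY : resMat c Y ≠ 0 := fun h0 => by
    obtain ⟨ek⟩ := nonempty_killed_equiv (p := p) (n := a + (c + 1)) (e := a + 1) (by omega)
    let T : Type := Fin 2 → killed (p := p) (a + (c + 1)) (a + 1)
    have hT : Nat.card T = p ^ (a + 1) * p ^ (a + 1) := by
      rw [Nat.card_fun, Nat.card_fin, Nat.card_congr ek.toEquiv, Nat.card_zmod, sq]
    have hker : ∀ v : T, X *ᵥ (fun l => (v l).1) = 0 := fun v => by
      rw [hXY, map_mulPow_mulVec]
      funext i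
      rw [Pi.zero_apply, map_eq_zero_iff _ (mulPow_injective a _)]
      show ∑ l, Y i l * redTo a (c + 1) (v l).1 = 0
      refine Finset.sum_eq_zero fun l _ => ?_
      obtain ⟨d, hd⟩ := res_eq_zero_iff.mp (congrFun (congrFun h0 i) l :)
      obtain ⟨d, rfl⟩ := red_surjective c d
      rw [pMul_red] at hd
      show Y i l * redTo a (c + 1) (v l).1 = 0
      have h1 : redTo a (c + 1) ((p : R[a + (c + 1)]) * (v l).1) = 0 := redTo_eq_zero_iff.mpr (by
        rw [← mul_assoc, ← pow_succ]; exact mem_killed.mp (v l).2)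
      rw [map_mul, map_natCast] at h1
      rw [← hd, mul_comm (p : R[c + 1]) d, mul_assoc, h1, mul_zero]
    let ι : T → K (a + 1) := fun v => ⟨⟨fun l => (v l).1, mem_kerMat.mpr (hker v)⟩, Subtype.ext
      (funext fun l => by
        show p ^ (a + 1) • (v l).1 = 0
        rw [nsmul_eq_mul, Nat.cast_pow]
        exact mem_killed.mp (v l).2)⟩
    have hι : Function.Injective ι := fun v w h => funext fun l =>
      Subtype.ext (congrFun (congrArg (fun z : K (a + 1) => z.1.1) h) l)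
    haveI : Finite (K (a + 1)) := Subtype.finite
    have hle := Nat.card_le_card_of_injective ι hι
    rw [hT, hK] at hle
    have h1 : Nat.card {x : R[a] // p ^ (a + 1) • x = 0} ≤ p ^ a :=
      (Finite.card_subtype_le _).trans (Nat.card_zmod _).le
    have h2 : p ^ a * p ^ (a + 1) < p ^ (a + 1) * p ^ (a + 1) :=
      Nat.mul_lt_mul_of_pos_right (Nat.pow_lt_pow_right hp.out.one_lt (Nat.lt_succ_self a))
        (pow_pos hp.out.pos _)
    exact absurd (hle.trans (Nat.mul_le_mul h1 (card_nsmul_eq_zero_le _ _))) h2.not_ge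
  obtain ⟨i, j, hij⟩ : ∃ i j, IsUnit (Y i j) := by
    by_contra hc
    push Not at hc
    exact hY (Matrix.ext fun i j => not_not.mp fun hne => hc i j (isUnit_iff_res.mpr hne))
  obtain ⟨S, hS, ⟨eS⟩⟩ := nonempty_ker_equiv (a := a) Y hij
  have hd0 : Y.det ≠ 0 := fun h0 => by
    set v := (eS.symm (0, ⟨1, (hS 1).mpr (by rw [h0, zero_mul])⟩)).1 with hv
    have hv' := mem_kerMat.mp (eS.symm (0, ⟨1, (hS 1).mpr (by rw [h0, zero_mul])⟩)).2
    rw [← hv] at hv'
    replace hv' : X *ᵥ v = 0 := (congrArg (· *ᵥ v) hXY).trans hv'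
    have h1 := congrArg eS (show p ^ (a + c) •
        eS.symm (0, ⟨1, (hS 1).mpr (by rw [h0, zero_mul])⟩) = 0 from Subtype.ext (hexp _ hv'))
    rw [map_nsmul, AddEquiv.apply_symm_apply, map_zero] at h1
    have h2 : p ^ (a + c) • (1 : R[a + (c + 1)]) = 0 :=
      congrArg (fun z => (z.2 : R[a + (c + 1)])) h1
    rw [nsmul_eq_mul, mul_one, ZMod.natCast_eq_zero_iff] at h2
    have := (Nat.pow_dvd_pow_iff_le_right hp.out.one_lt).mp h2
    omega
  refine ⟨Y, hXY, hY, ?_, hd0⟩
  -- the valuation of the determinant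
  obtain ⟨k, u, hu, hk⟩ := Nat.exists_eq_pow_mul_and_not_dvd (n := Y.det.val)
    (fun h => hd0 ((ZMod.val_eq_zero _).mp h)) p hp.out.one_lt.ne'
  have hdet : Y.det = (p : R[c + 1]) ^ k * (u : R[c + 1]) := by
    rw [← Nat.cast_pow, ← Nat.cast_mul, ← hk, ZMod.natCast_zmod_val]
  have hkc : k ≤ c := by
    by_contra hlt
    refine hd0 ?_
    rw [hdet, ← Nat.cast_pow, (ZMod.natCast_eq_zero_iff _ _).mpr (pow_dvd_pow p (by omega)),
      zero_mul]
  have huu : IsUnit (u : R[c + 1]) := isUnit_iff_res.mpr (by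
    rw [map_natCast, Ne, ZMod.natCast_eq_zero_iff]; exact hu)
  have hS' : S = killed (p := p) (a + (c + 1)) (a + k) := by
    ext x
    rw [hS, mem_killed, pow_add (p : R[a + (c + 1)]), mul_assoc, ← redTo_eq_zero_iff, map_mul,
      map_pow, map_natCast,
      hdet, mul_comm ((p : R[c + 1]) ^ k) u, mul_assoc, huu.mul_right_eq_zero]
  subst hS'
  obtain ⟨e1⟩ := nonempty_killed_equiv (p := p) (n := a + (c + 1)) (e := a) (by omega)
  obtain ⟨e2⟩ := nonempty_killed_equiv (p := p) (n := a + (c + 1)) (e := a + k) (by omega)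
  have hcard := Nat.card_congr e.toEquiv
  rw [hXY, Nat.card_congr (eS.trans (e1.prodCongr e2)).toEquiv, Nat.card_prod, Nat.card_prod,
    Nat.card_zmod, Nat.card_zmod, Nat.card_zmod, ← pow_add, ← pow_add] at hcard
  obtain rfl : k = c := by
    have := Nat.pow_right_injective hp.out.two_le hcard
    omega
  rw [hdet, ← mul_assoc, ← pow_succ', ← Nat.cast_pow, ZMod.natCast_self, zero_mul]

end FA.LPart

end
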