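import Fermat.Agent.LPart.Joint
import Fermat.Agent.LPart.Descend

/-!
# The primes with `#E(𝔽_q)` divisible by none of finitely many squares of primes

They are, up to finitely many, the disjoint union over `c : L → {0, 1}` of the primes at which the
`l`-part is cyclic of order `l^(c l)`, so the densities of these add up to a product.
-/

set_option autoImplicit false
set_option linter.style.haveILetI false
set_option linter.unusedSectionVars false

noncomputable section

open WeierstrassCurve NumberField IsDedekindDomain FA.Frob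
open scoped WeierstrassCurve.Affine Classical

local notation "Qb" => AlgebraicClosure ℚ
local notation "GQ" => AlgebraicClosure ℚ ≃ₐ[ℚ] AlgebraicClosure ℚ

namespace FA.LPart

/-- **The densities of disjoint sets add up.** -/
theorem hasDirichletDensity_union_disjoint {S T : Set (HeightOneSpectrum (𝓞 ℚ))} {δ ε : ℝ}
    (hS : S.HasDirichletDensity δ) (hT : T.HasDirichletDensity ε) (h : Disjoint S T) :
    (S ∪ T).HasDirichletDensity (δ + ε) := by
  refine (hS.add hT).congr' ?_
  filter_upwards [self_mem_nhdsWithin] with s hs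
  rw [← add_div]
  congr 1
  simp only [FA.Chebotarev.primeIdealZetaSum_eq]
  exact (Summable.tsum_union_disjoint (f := fun v => FA.Ext.zN s (FA.Ext.primeIdeal v)) h
    (FA.Chebotarev.summable_subtype_zN S hs)
    (FA.Chebotarev.summable_subtype_zN T hs)).symm

/-- The same for finitely many sets. -/
theorem hasDirichletDensity_biUnion_disjoint {ι : Type*} (J : Finset ι)
    (T : ι → Set (HeightOneSpectrum (𝓞 ℚ))) (δ : ι → ℝ)
    (h : ∀ i ∈ J, (T i).HasDirichletDensity (δ i)) (hd : (J : Set ι).PairwiseDisjoint T) :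
    (⋃ i ∈ J, T i).HasDirichletDensity (∑ i ∈ J, δ i) := by
  induction J using Finset.induction with
  | empty => simpa using NumberField.Set.hasDirichletDensity_empty
  | @insert i J hi ih =>
    rw [Finset.sum_insert hi, Finset.set_biUnion_insert]
    refine hasDirichletDensity_union_disjoint (h i (Finset.mem_insert_self _ _))
      (ih (fun j hj => h j (Finset.mem_insert_of_mem hj))
        (hd.subset (Finset.coe_subset.mpr (Finset.subset_insert _ _)))) ?_
    simp only [Set.disjoint_iUnion_right]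
    exact fun j hj => hd (Finset.mem_insert_self _ _) (Finset.mem_insert_of_mem hj)
      fun e => hi (e ▸ hj)

/-- A smaller set has no larger density. -/
theorem density_le_of_subset {S T : Set (HeightOneSpectrum (𝓞 ℚ))} {δ ε : ℝ}
    (hS : S.HasDirichletDensity δ) (hT : T.HasDirichletDensity ε) (h : S ⊆ T) : δ ≤ ε := by
  refine le_of_tendsto_of_tendsto hS hT ?_
  filter_upwards [self_mem_nhdsWithin] with s hs
  refine div_le_div_of_nonneg_right ?_ (Set.primeIdealZetaSum_nonneg _ s)
  simp only [FA.Chebotarev.primeIdealZetaSum_eq]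
  conv_rhs => rw [← Set.union_sdiff_cancel h]
  rw [Summable.tsum_union_disjoint (f := fun v => FA.Ext.zN s (FA.Ext.primeIdeal v))
    Set.disjoint_sdiff_right (FA.Chebotarev.summable_subtype_zN S hs)
    (FA.Chebotarev.summable_subtype_zN (T \ S) hs)]
  exact le_add_of_nonneg_right (tsum_nonneg fun v => FA.Ext.zN_nonneg _ _)

variable {G : Type*} [AddCommGroup G] [Finite G] {p : ℕ} [hp : Fact p.Prime]

/-- The order of the primary component is a power of `p` dividing the order of the group. -/
theorem exists_natCard_primaryComponent :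
    ∃ k, Nat.card (AddCommGroup.primaryComponent G p) = p ^ k := by
  refine ⟨_, Nat.eq_prime_pow_of_unique_prime_dvd Nat.card_pos.ne' fun {d} hd hdvd => ?_⟩
  haveI := Fact.mk hd
  obtain ⟨x, hx⟩ := exists_prime_addOrderOf_dvd_card' d hdvd
  obtain ⟨k, hk⟩ := AddCommGroup.mem_primaryComponent.mp x.2
  have h : addOrderOf x ∣ p ^ k := addOrderOf_dvd_of_nsmul_eq_zero (Subtype.ext hk)
  rw [hx] at h
  exact (Nat.prime_dvd_prime_iff_eq hd hp.out).mp (hd.dvd_of_dvd_pow h)

/-- The square of `p` divides the order exactly when the primary component is that large. -/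
theorem sq_dvd_natCard_iff :
    p ^ 2 ∣ Nat.card G ↔ p ^ 2 ≤ Nat.card (AddCommGroup.primaryComponent G p) := by
  obtain ⟨k, hk⟩ := exists_natCard_primaryComponent (G := G) (p := p)
  constructor
  · intro h
    obtain ⟨H, hH⟩ := Sylow.exists_subgroup_card_pow_prime (G := Multiplicative G) p
      (n := 2) (by rw [Nat.card_congr Multiplicative.toAdd]; exact h)
    rw [← hH]
    refine Nat.card_le_card_of_injective (fun x : H => (⟨Multiplicative.toAdd x.1,
      AddCommGroup.mem_primaryComponent.mpr ⟨2, ?_⟩⟩ : AddCommGroup.primaryComponent G p))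
      fun x y e => Subtype.ext (Multiplicative.toAdd.injective (congrArg Subtype.val e :))
    have e : x.1 ^ p ^ 2 = 1 := by
      rw [← hH, ← SubmonoidClass.coe_pow, pow_card_eq_one', OneMemClass.coe_one]
    rw [← toAdd_pow, e, toAdd_one]
  · intro h
    rw [hk] at h
    exact ((pow_dvd_pow p ((Nat.pow_le_pow_iff_right hp.out.one_lt).mp h)).trans
      (dvd_of_eq hk.symm)).trans (AddSubgroup.card_addSubgroup_dvd_card _)

/-- **No square**: the primary component is trivial or of order `p`. -/
theorem not_sq_dvd_natCard_iff :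
    ¬ p ^ 2 ∣ Nat.card G ↔ ∃ c, c < 2 ∧
      Nonempty (AddCommGroup.primaryComponent G p ≃+ ZMod (p ^ 0) × ZMod (p ^ c)) := by
  obtain ⟨k, hk⟩ := exists_natCard_primaryComponent (G := G) (p := p)
  rw [sq_dvd_natCard_iff, hk, Nat.pow_le_pow_iff_right hp.out.one_lt, not_le]
  have hcard : ∀ c, Nat.card (ZMod (p ^ 0) × ZMod (p ^ c)) = p ^ c := fun c => by
    rw [Nat.card_prod, Nat.card_zmod, Nat.card_zmod, pow_zero, one_mul]
  constructor
  · intro h
    refine ⟨k, h, ⟨?_⟩⟩
    interval_cases k
    · rw [pow_zero] at hk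
      haveI : Subsingleton (AddCommGroup.primaryComponent G p) :=
        (Nat.card_eq_one_iff_unique.mp hk).1
      haveI : Subsingleton (ZMod (p ^ 0) × ZMod (p ^ 0)) :=
        (Nat.card_eq_one_iff_unique.mp ((hcard 0).trans (pow_zero p))).1
      haveI : Unique (ZMod (p ^ 0) × ZMod (p ^ 0)) := uniqueOfSubsingleton 0
      haveI : Unique (AddCommGroup.primaryComponent G p) := uniqueOfSubsingleton 0
      exact AddEquiv.ofUnique
    · exact addEquivOfPrimeCardEq (hk.trans (pow_one p)) ((hcard 1).trans (pow_one p))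
  · rintro ⟨c, hc, ⟨e⟩⟩
    have h := (Nat.card_congr e.toEquiv).trans (hcard c)
    rw [hk] at h
    rw [Nat.pow_right_injective hp.out.two_le h]
    exact hc

variable {W : WeierstrassCurve ℤ} [(ratCurve W).IsElliptic]

/-- **The density of the primes with none of the squares dividing `#E(𝔽_q)`.** -/
theorem hasDirichletDensity_not_sq_dvd (L : Finset ℕ) (hL : ∀ l ∈ L, l.Prime)
    (hfull : ∀ φ : Submodule.torsionBy ℤ ((ratCurve W)⁄Qb).Point ((∏ l ∈ L, l ^ 2 : ℕ) : ℤ) ≃+
        Submodule.torsionBy ℤ ((ratCurve W)⁄Qb).Point ((∏ l ∈ L, l ^ 2 : ℕ) : ℤ),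
      ∃ σ : GQ, ∀ T, σ • T.1 = (φ T).1) :
    {v : HeightOneSpectrum (𝓞 ℚ) | ∀ l ∈ L, ¬ l ^ 2 ∣ Nat.card
      (W.map (Int.castRingHom (ZMod (Ideal.absNorm v.asIdeal)))).toAffine.Point}.HasDirichletDensity
      (∏ l ∈ L, (shapeDensity l 0 1 + shapeDensity l 0 0)) := by
  set c : Finset ℕ → ℕ → ℕ := fun J l => if l ∈ J then 1 else 0
  set T : Finset ℕ → Set (HeightOneSpectrum (𝓞 ℚ)) := fun J => {v |
    ∃ _ : Fact (Ideal.absNorm v.asIdeal).Prime, ∀ (l : ℕ) (_ : Fact l.Prime), l ∈ L →
      Nonempty (AddCommGroup.primaryComponent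
          (W.map (Int.castRingHom (ZMod (Ideal.absNorm v.asIdeal)))).toAffine.Point l ≃+
        ZMod (l ^ 0) × ZMod (l ^ (0 + c J l)))}
  haveI : NeZero (∏ l ∈ L, l ^ 2) :=
    ⟨Finset.prod_ne_zero_iff.mpr fun l hl => pow_ne_zero _ (hL l hl).ne_zero⟩
  have hlow : ∀ J, ∀ φ : Submodule.torsionBy ℤ ((ratCurve W)⁄Qb).Point
        ((∏ l ∈ L, l ^ (0 + (c J l + 1)) : ℕ) : ℤ) ≃+
      Submodule.torsionBy ℤ ((ratCurve W)⁄Qb).Point
        ((∏ l ∈ L, l ^ (0 + (c J l + 1)) : ℕ) : ℤ),
      ∃ σ : GQ, ∀ T, σ • T.1 = (φ T).1 := fun J => by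
    refine full_of_dvd (Finset.prod_dvd_prod_of_dvd _ _ fun l _ => pow_dvd_pow l ?_)
      (fun r hr hd => ?_) hfull
    · simp only [c]
      split_ifs <;> norm_num
    · obtain ⟨l, hl, hdl⟩ := (Prime.dvd_finsetProd_iff hr.prime _).mp hd
      obtain rfl := (Nat.prime_dvd_prime_iff_eq hr (hL l hl)).mp (hr.dvd_of_dvd_pow hdl)
      exact (dvd_pow_self r (by omega)).trans (Finset.dvd_prod_of_mem _ hl)
  have hd := hasDirichletDensity_biUnion_disjoint L.powerset T
    (fun J => ∏ l ∈ L, shapeDensity l 0 (c J l))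
    (fun J hJ => hasDirichletDensity_joint L hL (fun _ => 0) (c J)
      (hlow J)) ?_
  swap
  · intro J hJ K hK hne
    refine Set.disjoint_left.mpr fun v hvJ hvK => hne ?_
    obtain ⟨_, hvJ⟩ := hvJ
    obtain ⟨_, hvK⟩ := hvK
    ext l
    by_cases hl : l ∈ L
    · haveI := Fact.mk (hL l hl)
      obtain ⟨e⟩ := hvJ l inferInstance hl
      obtain ⟨e'⟩ := hvK l inferInstance hl
      have h := Nat.card_congr (e.symm.trans e').toEquiv
      simp only [Nat.card_prod, Nat.card_zmod, zero_add, pow_zero, one_mul] at h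
      have := Nat.pow_right_injective (hL l hl).two_le h
      simp only [c] at this
      split_ifs at this <;> simp_all
    · exact iff_of_false (fun h => hl (Finset.mem_powerset.mp hJ h))
        fun h => hl (Finset.mem_powerset.mp hK h)
  rw [show (∏ l ∈ L, (shapeDensity l 0 1 + shapeDensity l 0 0)) =
      ∑ J ∈ L.powerset, ∏ l ∈ L, shapeDensity l 0 (c J l) by
    rw [Finset.prod_add]
    refine Finset.sum_congr rfl fun J hJ => ?_
    rw [← Finset.prod_sdiff (Finset.mem_powerset.mp hJ), mul_comm]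
    congr 1
    · exact Finset.prod_congr rfl fun l hl => by simp [c, (Finset.mem_sdiff.mp hl).2]
    · exact Finset.prod_congr rfl fun l hl => by simp [c, hl]]
  have hΔ : W.Δ ≠ 0 := fun h => (ratCurve W).isUnit_Δ.ne_zero (by simp [ratCurve, h])
  refine FA.TraceDist.hasDirichletDensity_congr hd
    (FA.Supersingular.finite_absNorm_mem W.Δ.natAbs.primeFactors) fun v hv => ?_
  have hq := FA.Chebotarev.absNorm_prime v
  haveI := Fact.mk hq
  have hgood : W.IsGoodPrimeFor (Ideal.absNorm v.asIdeal) := fun hd' => hv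
    (Nat.mem_primeFactors.mpr ⟨hq, Int.natCast_dvd.mp hd', Int.natAbs_ne_zero.mpr hΔ⟩)
  simp only [Set.mem_iUnion, Finset.mem_powerset, exists_prop]
  constructor
  · rintro ⟨J, -, _, h⟩ l hl
    haveI := Fact.mk (hL l hl)
    refine not_sq_dvd_natCard_iff.mpr ⟨0 + c J l, ?_, h l inferInstance hl⟩
    simp only [c]
    split_ifs <;> norm_num
  · intro h
    refine ⟨L.filter fun l => l ∣ Nat.card
      (W.map (Int.castRingHom (ZMod (Ideal.absNorm v.asIdeal)))).toAffine.Point,
      Finset.filter_subset _ _, inferInstance, fun l hl' hl => ?_⟩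
    haveI := hl'
    obtain ⟨k, hk, ⟨e⟩⟩ := not_sq_dvd_natCard_iff.mp (h l hl)
    suffices hkc : k = 0 + c (L.filter fun l => l ∣ Nat.card
        (W.map (Int.castRingHom (ZMod (Ideal.absNorm v.asIdeal)))).toAffine.Point) l from
      hkc ▸ ⟨e⟩
    have hc := (Nat.card_congr e.toEquiv).trans (by
      rw [Nat.card_prod, Nat.card_zmod, Nat.card_zmod, pow_zero, one_mul] :
        Nat.card (ZMod (l ^ 0) × ZMod (l ^ k)) = l ^ k)
    simp only [c, Finset.mem_filter, hl, true_and, zero_add]
    interval_cases k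
    · rw [if_neg]
      intro hd'
      obtain ⟨x, hx⟩ := exists_prime_addOrderOf_dvd_card' l hd'
      have hmem : x ∈ AddCommGroup.primaryComponent
          (W.map (Int.castRingHom (ZMod (Ideal.absNorm v.asIdeal)))).toAffine.Point l :=
        AddCommGroup.mem_primaryComponent.mpr
          ⟨1, by rw [pow_one, ← hx]; exact addOrderOf_nsmul_eq_zero x⟩
      rw [pow_zero] at hc
      have h1 := (Nat.card_eq_one_iff_unique.mp hc).1.elim ⟨x, hmem⟩ 0
      rw [show x = 0 from congrArg Subtype.val h1, addOrderOf_zero] at hx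
      exact hl'.out.one_lt.ne hx
    · rw [if_pos]
      rw [pow_one] at hc
      exact (dvd_of_eq hc.symm).trans (AddSubgroup.card_addSubgroup_dvd_card _)

/-- **A group of squarefree order is cyclic.** -/
theorem isAddCyclic_of_squarefree {A : Type*} [AddCommGroup A]
    (h : Squarefree (Nat.card A)) : IsAddCyclic A := by
  haveI : Finite (Multiplicative A) := Nat.finite_of_card_ne_zero (α := Multiplicative A)
    (by rw [Nat.card_congr Multiplicative.toAdd]; exact h.ne_zero)
  haveI : IsZGroup (Multiplicative A) :=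
    IsZGroup.of_squarefree (by rw [Nat.card_congr Multiplicative.toAdd]; exact h)
  exact isCyclic_multiplicative_iff.mp inferInstance

end FA.LPart

end
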